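import Mathlib

/-!
# KL-B, abstract part: basic definitions

* `Unr O E₁ E₂`: the codifferent of `E₂ / E₁` relative to `O` is trivial: every `y : E₂` such that
  `Tr_{E₂/E₁}(y z)` is integral over `O` for every `O`-integral `z` is itself integral over `O`.
  This notion of "unramified" is closed under towers, sub-extensions and top-extensions.
* `IsLocSub T O`: the subring `O` of the field `L` is the localisation `T⁻¹ S`.
* `ndvd hπ`: the multiplicative set of elements not divisible by the prime element `π`.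
* `NearInt S Oπ π y`: `y ∈ R + π R_π` (`R`, `R_π` the integral closures of `S`, `Oπ`).
* `IdemMod S Oπ π ε`: `ε ∈ R_π` is idempotent modulo `π R_π`.
-/

namespace Fermat.Agent.KLB

/-- The codifferent of `E₂/E₁` with respect to the `O`-integral elements is trivial. -/
def Unr (O E₁ E₂ : Type*) [CommRing O] [Field E₁] [Field E₂] [Algebra O E₁] [Algebra O E₂]
    [Algebra E₁ E₂] : Prop :=
  ∀ y : E₂, (∀ z : E₂, IsIntegral O z → IsIntegral O (Algebra.trace E₁ E₂ (y * z))) →
    IsIntegral O y

section towers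

variable {O E₀ E₁ E₂ : Type*} [CommRing O] [Field E₀] [Field E₁] [Field E₂]
  [Algebra O E₀] [Algebra O E₁] [Algebra O E₂] [Algebra E₀ E₁] [Algebra E₁ E₂] [Algebra E₀ E₂]
  [IsScalarTower E₀ E₁ E₂] [FiniteDimensional E₀ E₁] [FiniteDimensional E₁ E₂]

/-- Transitivity in towers. -/
theorem Unr.trans [IsScalarTower O E₁ E₂] (h₁ : Unr O E₀ E₁) (h₂ : Unr O E₁ E₂) :
    Unr O E₀ E₂ := by
  intro y hy
  refine h₂ y fun z hz => h₁ _ fun z₁ hz₁ => ?_
  have hz' : IsIntegral O (z * algebraMap E₁ E₂ z₁) := hz.mul (hz₁.algebraMap)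
  have := hy _ hz'
  rwa [← Algebra.trace_trace (S := E₁), ← mul_assoc, mul_comm (y * z), ← Algebra.smul_def,
    map_smul, smul_eq_mul, mul_comm] at this

/-- The top part of an unramified tower is unramified. -/
theorem Unr.top [IsScalarTower O E₀ E₁] (h : Unr O E₀ E₂) : Unr O E₁ E₂ := by
  intro y hy
  refine h y fun z hz => ?_
  rw [← Algebra.trace_trace (S := E₁)]
  exact Algebra.isIntegral_trace (hy z hz)

/-- The bottom part of an unramified tower is unramified. -/
theorem Unr.bot [IsScalarTower O E₁ E₂] (h : Unr O E₀ E₂) : Unr O E₀ E₁ := by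
  intro y hy
  have : IsIntegral O (algebraMap E₁ E₂ y) := by
    refine h _ fun z hz => ?_
    rw [← Algebra.trace_trace (S := E₁), ← Algebra.smul_def, map_smul, smul_eq_mul]
    exact hy _ (Algebra.isIntegral_trace hz)
  exact (isIntegral_algebraMap_iff (algebraMap E₁ E₂).injective).mp this

end towers

/-- `Unr` only depends on the notion of integrality. -/
theorem Unr.congr {O O' E₁ E₂ : Type*} [CommRing O] [CommRing O'] [Field E₁] [Field E₂]
    [Algebra O E₁] [Algebra O E₂] [Algebra O' E₁] [Algebra O' E₂] [Algebra E₁ E₂]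
    (h₁ : ∀ a : E₁, IsIntegral O a ↔ IsIntegral O' a)
    (h₂ : ∀ y : E₂, IsIntegral O y ↔ IsIntegral O' y) (h : Unr O E₁ E₂) : Unr O' E₁ E₂ := by
  intro y hy
  exact (h₂ y).mp (h y fun z hz => (h₁ _).mpr (hy z ((h₂ z).mp hz)))

/-- `O` is the localisation `T⁻¹ S` inside the field `L`. -/
def IsLocSub {S L : Type*} [CommRing S] [Field L] [Algebra S L] (T : Submonoid S)
    (O : Subring L) : Prop :=
  ∀ a : L, a ∈ O ↔ ∃ d ∈ T, ∃ s : S, algebraMap S L d * a = algebraMap S L s

/-- The multiplicative set of the elements which are not divisible by the prime element `π`. -/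
def ndvd {S : Type*} [CommRing S] {π : S} (hπ : Prime π) : Submonoid S where
  carrier := {d | ¬ π ∣ d}
  one_mem' := hπ.not_dvd_one
  mul_mem' := fun ha hb h => (hπ.dvd_or_dvd h).elim ha hb

@[simp] theorem mem_ndvd {S : Type*} [CommRing S] {π : S} (hπ : Prime π) {d : S} :
    d ∈ ndvd hπ ↔ ¬ π ∣ d := Iff.rfl

section near

variable (S : Type*) {L E : Type*} [CommRing S] [Field L] [Field E] [Algebra S L] [Algebra L E]
  [Algebra S E]

/-- `y ∈ R + π R_π`. -/
def NearInt (Oπ : Subring L) (π : S) (y : E) : Prop :=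
  ∃ e r : E, IsIntegral S e ∧ IsIntegral Oπ r ∧ y = e + algebraMap S E π * r

/-- `ε ∈ R_π` is idempotent modulo `π R_π`. -/
def IdemMod (Oπ : Subring L) (π : S) (ε : E) : Prop :=
  IsIntegral Oπ ε ∧ ∃ r : E, IsIntegral Oπ r ∧ ε ^ 2 - ε = algebraMap S E π * r

end near

end Fermat.Agent.KLB
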