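import Fermat.Agent.KLB.Abs.Defs

/-!
# KL-B abstract part, nodes LOC and INT
Proofs: helper171.
-/

set_option linter.unusedSectionVars false

namespace Fermat.Agent.KLB

/-! ## LOC : integrality over a localisation -/
section LOC

variable {S L E : Type*} [CommRing S] [IsDomain S] [Field L] [Field E] [Algebra S L]
  [IsFractionRing S L] [Algebra L E] [Algebra S E] [IsScalarTower S L E]
  {T : Submonoid S} {O : Subring L}

theorem IsLocSub.algebraMap_mem (hO : IsLocSub T O) (s : S) : algebraMap S L s ∈ O :=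
  (hO _).mpr ⟨1, T.one_mem, s, by rw [map_one, one_mul]⟩

theorem IsLocSub.inv_mem (hO : IsLocSub T O) {d : S} (hd : d ∈ T) :
    (algebraMap S L d)⁻¹ ∈ O := by
  by_cases h : algebraMap S L d = 0
  · rw [h, inv_zero]
    exact zero_mem O
  · exact (hO _).mpr ⟨d, hd, 1, by rw [mul_inv_cancel₀ h, map_one]⟩

theorem IsLocSub.isIntegral_of (hO : IsLocSub T O) {y : E} (hy : IsIntegral S y) :
    IsIntegral O y := by
  obtain ⟨p, hp, hp0⟩ := hy
  let f : S →+* O := (algebraMap S L).codRestrict O hO.algebraMap_mem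
  refine ⟨p.map f, hp.map f, ?_⟩
  rw [Polynomial.eval₂_map]
  have hf : (algebraMap O E).comp f = algebraMap S E := by
    ext s
    exact (IsScalarTower.algebraMap_apply S L E s).symm
  rw [hf]
  exact hp0

theorem IsLocSub.isIntegral_iff (hO : IsLocSub T O) (hT : T ≤ nonZeroDivisors S) (y : E) :
    IsIntegral O y ↔ ∃ d ∈ T, IsIntegral S (algebraMap S E d * y) := by
  have hne : ∀ d ∈ T, algebraMap S L d ≠ 0 := fun d hd =>
    IsFractionRing.to_map_ne_zero_of_mem_nonZeroDivisors (hT hd)
  constructor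
  · intro hy
    let _ : Algebra S O := ((algebraMap S L).codRestrict O hO.algebraMap_mem).toAlgebra
    have hcoe : ∀ s : S, ((algebraMap S O s : O) : L) = algebraMap S L s := fun _ => rfl
    have : IsScalarTower S O E := IsScalarTower.of_algebraMap_eq fun s =>
      IsScalarTower.algebraMap_apply S L E s
    have : IsLocalization T O :=
      { map_units := by
          rintro ⟨d, hd⟩
          refine IsUnit.of_mul_eq_one (⟨(algebraMap S L d)⁻¹, hO.inv_mem hd⟩ : O) ?_
          apply Subtype.ext
          show algebraMap S L d * (algebraMap S L d)⁻¹ = 1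
          exact mul_inv_cancel₀ (hne d hd)
        surj := by
          rintro ⟨a, ha⟩
          obtain ⟨d, hd, s, hs⟩ := (hO a).mp ha
          refine ⟨(s, ⟨d, hd⟩), ?_⟩
          apply Subtype.ext
          show a * algebraMap S L d = algebraMap S L s
          rw [mul_comm, hs]
        exists_of_eq := by
          intro x z hxz
          refine ⟨1, ?_⟩
          have h1 : algebraMap S L x = algebraMap S L z := congrArg Subtype.val hxz
          rw [IsFractionRing.injective S L h1] }
    obtain ⟨m, hm⟩ := IsIntegral.exists_multiple_integral_of_isLocalization T (Rₘ := O) y hy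
    refine ⟨m, m.2, ?_⟩
    rwa [Submonoid.smul_def, Algebra.smul_def] at hm
  · rintro ⟨d, hd, hdy⟩
    have h1 : IsIntegral O (algebraMap S E d * y) := hO.isIntegral_of hdy
    have h2 : IsIntegral O (algebraMap O E ⟨(algebraMap S L d)⁻¹, hO.inv_mem hd⟩) :=
      isIntegral_algebraMap
    have h3 := h2.mul h1
    have h4 : algebraMap O E ⟨(algebraMap S L d)⁻¹, hO.inv_mem hd⟩ * (algebraMap S E d * y) = y := by
      show algebraMap L E (algebraMap S L d)⁻¹ * (algebraMap S E d * y) = y
      rw [IsScalarTower.algebraMap_apply S L E d, ← mul_assoc, ← map_mul,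
        inv_mul_cancel₀ (hne d hd), map_one, one_mul]
    rwa [h4] at h3

theorem IsLocSub.mem_of_isIntegral [IsIntegrallyClosed S] (hO : IsLocSub T O)
    (hT : T ≤ nonZeroDivisors S) {a : L} (ha : IsIntegral O a) : a ∈ O := by
  obtain ⟨d, hd, hda⟩ := (hO.isIntegral_iff (E := L) hT a).mp ha
  obtain ⟨s, hs⟩ := (IsIntegrallyClosed.isIntegral_iff (R := S) (K := L)).mp hda
  exact (hO a).mpr ⟨d, hd, s, hs.symm⟩

end LOC

/-! ## INT : integral over two rings => integral over the intersection -/
section INT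

variable {L E : Type*} [Field L] [Field E] [Algebra L E]

/-- the coefficients of the minimal polynomial over `L` of an `O`-integral element are
`O`-integral -/
theorem isIntegral_coeff_minpoly (O : Subring L) {y : E} (hy : IsIntegral O y) (i : ℕ) :
    IsIntegral O ((minpoly L y).coeff i) := by
  obtain ⟨p, hp, hp0⟩ := hy
  have hyL : IsIntegral L y := by
    refine ⟨p.map (algebraMap O L), hp.map _, ?_⟩
    rw [Polynomial.eval₂_map]
    exact hp0
  refine Polynomial.isIntegral_coeff_of_dvd p (minpoly L y) hp (minpoly.monic hyL) ?_ i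
  apply minpoly.dvd
  rw [Polynomial.aeval_def, Polynomial.eval₂_map]
  exact hp0

theorem isIntegral_of_inter (O₁ O₂ O : Subring L)
    (h₁ : ∀ a : L, IsIntegral O₁ a → a ∈ O₁) (h₂ : ∀ a : L, IsIntegral O₂ a → a ∈ O₂)
    (h : ∀ a : L, a ∈ O₁ → a ∈ O₂ → a ∈ O) {y : E}
    (hy₁ : IsIntegral O₁ y) (hy₂ : IsIntegral O₂ y) : IsIntegral O y := by
  have hyL : IsIntegral L y := by
    obtain ⟨p, hp, hp0⟩ := hy₁
    refine ⟨p.map (algebraMap O₁ L), hp.map _, ?_⟩
    rw [Polynomial.eval₂_map]
    exact hp0
  have hc : ∀ i, (minpoly L y).coeff i ∈ O := fun i =>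
    h _ (h₁ _ (isIntegral_coeff_minpoly O₁ hy₁ i)) (h₂ _ (isIntegral_coeff_minpoly O₂ hy₂ i))
  have hsub : (↑(minpoly L y).coeffs : Set L) ⊆ O := by
    intro a ha
    obtain ⟨i, -, rfl⟩ := Polynomial.mem_coeffs_iff.mp (Finset.mem_coe.mp ha)
    exact hc i
  refine ⟨(minpoly L y).toSubring O hsub, ?_, ?_⟩
  · exact (Polynomial.monic_toSubring _ _ _).mpr (minpoly.monic hyL)
  · have h5 : ((minpoly L y).toSubring O hsub).map (algebraMap O L) = minpoly L y :=
      Polynomial.map_toSubring _ _ _
    have h6 := minpoly.aeval L y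
    rw [← h5, Polynomial.aeval_def, Polynomial.eval₂_map] at h6
    exact h6

end INT

end Fermat.Agent.KLB
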