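import Fermat.Agent.KLB.Abs.Cech.Newton
import Fermat.Agent.KLB.Abs.Cech.Torsion
import Fermat.Agent.KLB.Abs.Cech.Inter

/-!
# KL-B abstract part, node CECH: connectedness of the special fibre
-/

namespace Fermat.Agent.KLB

section aux

variable {S E : Type*} [CommRing S] [Field E] [Algebra S E]

theorem lift_in (p : S) {e : E} (he : IsIntegral S e)
    (h : ∃ r : E, IsIntegral S r ∧ e ^ 2 - e = algebraMap S E p * r) (N : ℕ) :
    ∃ e' t r' : E, IsIntegral S e' ∧ IsIntegral S t ∧ IsIntegral S r' ∧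
      e' - e = algebraMap S E p * t ∧ e' ^ 2 - e' = algebraMap S E p ^ (N + 1) * r' := by
  obtain ⟨r, hr, hr'⟩ := h
  let R := integralClosure S E
  let e0 : R := ⟨e, he⟩
  let r0 : R := ⟨r, hr⟩
  have h0 : algebraMap S R p ∣ e0 ^ 2 - e0 := ⟨r0, Subtype.ext (by simpa [e0, r0] using hr')⟩
  obtain ⟨e', ⟨t, ht⟩, ⟨r', hr''⟩⟩ := exists_idem_lift (algebraMap S R p) e0 h0 N
  refine ⟨e', t, r', e'.2, t.2, r'.2, ?_, ?_⟩
  · have := congrArg (Subtype.val) ht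
    simpa [e0] using this
  · have := congrArg (Subtype.val) hr''
    simpa using this

theorem unique_in (p : S) {e f : E} (he : IsIntegral S e) (hf : IsIntegral S f) (N : ℕ)
    (h₁ : ∃ r : E, IsIntegral S r ∧ e ^ 2 - e = algebraMap S E p ^ N * r)
    (h₂ : ∃ r : E, IsIntegral S r ∧ f ^ 2 - f = algebraMap S E p ^ N * r)
    (h₃ : ∃ r : E, IsIntegral S r ∧ e - f = algebraMap S E p * r) :
    ∃ r : E, IsIntegral S r ∧ e - f = algebraMap S E p ^ N * r := by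
  obtain ⟨r₁, hr₁, h₁⟩ := h₁
  obtain ⟨r₂, hr₂, h₂⟩ := h₂
  obtain ⟨r₃, hr₃, h₃⟩ := h₃
  let R := integralClosure S E
  let e0 : R := ⟨e, he⟩
  let f0 : R := ⟨f, hf⟩
  have a₁ : algebraMap S R p ^ N ∣ e0 ^ 2 - e0 :=
    ⟨⟨r₁, hr₁⟩, Subtype.ext (by simpa [e0] using h₁)⟩
  have a₂ : algebraMap S R p ^ N ∣ f0 ^ 2 - f0 :=
    ⟨⟨r₂, hr₂⟩, Subtype.ext (by simpa [f0] using h₂)⟩
  have a₃ : algebraMap S R p ∣ e0 - f0 :=
    ⟨⟨r₃, hr₃⟩, Subtype.ext (by simpa [e0, f0] using h₃)⟩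
  obtain ⟨r, hr⟩ := idem_unique _ _ _ N a₁ a₂ a₃
  refine ⟨r, r.2, ?_⟩
  have := congrArg (Subtype.val) hr
  simpa [e0, f0] using this

end aux

section CECH

variable {A L E : Type*} [CommRing A] [IsDomain A] [IsDiscreteValuationRing A] [Field L] [Field E]
  [Algebra A L] [Algebra L E] [Algebra A E] [IsScalarTower A L E] [FiniteDimensional L E]
  [Algebra.IsSeparable L E] {x : L} (hx : IsCoord A x) {π : A} (hπ : Irreducible π)

include hx hπ

theorem cech (hconst : ∀ y : E, IsIntegral A y → y ∈ (algebraMap A E).range) {e₁ e₂ : E}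
    (h₁ : IsIntegral (Algebra.adjoin A {x}) e₁) (h₂ : IsIntegral (Algebra.adjoin A {x⁻¹}) e₂)
    (h₁' : ∃ r : E, IsIntegral (Algebra.adjoin A {x}) r ∧ e₁ ^ 2 - e₁ = algebraMap A E π * r)
    (h₂' : ∃ r : E, IsIntegral (Algebra.adjoin A {x⁻¹}) r ∧ e₂ ^ 2 - e₂ = algebraMap A E π * r)
    (h₁₂ : ∃ r : E, IsIntegral (Algebra.adjoin A {x, x⁻¹}) r ∧ e₁ - e₂ = algebraMap A E π * r) :
    (∃ r : E, IsIntegral (Algebra.adjoin A {x}) r ∧ e₁ = algebraMap A E π * r) ∨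
      (∃ r : E, IsIntegral (Algebra.adjoin A {x}) r ∧ 1 - e₁ = algebraMap A E π * r) := by
  have := hx.frac
  have := hx.inv.frac
  have a1 : algebraMap (Algebra.adjoin A {x}) E (algebraMap A _ π) = algebraMap A E π :=
    (IsScalarTower.algebraMap_apply A (Algebra.adjoin A {x}) E π).symm
  have a2 : algebraMap (Algebra.adjoin A {x⁻¹}) E (algebraMap A _ π) = algebraMap A E π :=
    (IsScalarTower.algebraMap_apply A (Algebra.adjoin A {x⁻¹}) E π).symm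
  have a3 : algebraMap (Algebra.adjoin A {x, x⁻¹}) E (algebraMap A _ π) = algebraMap A E π :=
    (IsScalarTower.algebraMap_apply A (Algebra.adjoin A {x, x⁻¹}) E π).symm
  have mono₁ : ∀ y : E, IsIntegral (Algebra.adjoin A {x}) y →
      IsIntegral (Algebra.adjoin A {x, x⁻¹}) y := fun y hy =>
    hx.isLocSub_powers.isIntegral_of hy
  have mono₂ : ∀ y : E, IsIntegral (Algebra.adjoin A {x⁻¹}) y →
      IsIntegral (Algebra.adjoin A {x, x⁻¹}) y := fun y hy => by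
    have := hx.inv.isLocSub_powers.isIntegral_of hy
    rw [inv_inv, Set.pair_comm] at this
    exact this
  have intA₁ : ∀ a : A, IsIntegral (Algebra.adjoin A {x}) (algebraMap A E a) := fun a => by
    rw [IsScalarTower.algebraMap_apply A (Algebra.adjoin A {x}) E]; exact isIntegral_algebraMap
  have intA₂ : ∀ a : A, IsIntegral (Algebra.adjoin A {x⁻¹}) (algebraMap A E a) := fun a => by
    rw [IsScalarTower.algebraMap_apply A (Algebra.adjoin A {x⁻¹}) E]; exact isIntegral_algebraMap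
  set p : E := algebraMap A E π with hp
  have hp0 : p ≠ 0 := by
    intro h
    have h' : algebraMap (Algebra.adjoin A {x}) L (algebraMap A _ π) = 0 := by
      have h2 : algebraMap L E (algebraMap A L π) = 0 := by
        rw [← IsScalarTower.algebraMap_apply]; exact h
      rw [← IsScalarTower.algebraMap_apply]
      exact (map_eq_zero _).mp h2
    exact (hx.prime hπ).ne_zero ((map_eq_zero_iff _ (IsFractionRing.injective _ L)).mp h')
  obtain ⟨e₀, htor⟩ := cech_torsion (E := E) hx π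
  obtain ⟨f₁, t₁, r₁, hf₁, ht₁, hr₁, hft₁, hfr₁⟩ :=
    lift_in (algebraMap A (Algebra.adjoin A {x}) π) h₁ (by rw [a1]; exact h₁') e₀
  obtain ⟨f₂, t₂, r₂, hf₂, ht₂, hr₂, hft₂, hfr₂⟩ :=
    lift_in (algebraMap A (Algebra.adjoin A {x⁻¹}) π) h₂ (by rw [a2]; exact h₂') e₀
  rw [a1] at hft₁ hfr₁
  rw [a2] at hft₂ hfr₂
  obtain ⟨r₀, hr₀, h0⟩ := h₁₂
  obtain ⟨c, hc, hc'⟩ := unique_in (algebraMap A (Algebra.adjoin A {x, x⁻¹}) π) (mono₁ _ hf₁)
    (mono₂ _ hf₂) (e₀ + 1) ⟨r₁, mono₁ _ hr₁, by rw [a3]; exact hfr₁⟩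
    ⟨r₂, mono₂ _ hr₂, by rw [a3]; exact hfr₂⟩
    ⟨t₁ + r₀ - t₂, ((mono₁ _ ht₁).add hr₀).sub (mono₂ _ ht₂), by
      rw [a3]; linear_combination hft₁ + h0 - hft₂⟩
  rw [a3] at hc'
  obtain ⟨y₁, y₂, hy₁, hy₂, hy⟩ := htor c hc (e₀ + 1) ⟨f₁, -f₂, hf₁, hf₂.neg, by
    rw [← hc']; ring⟩
  -- the global section
  have hγ : f₁ - p * y₁ = f₂ + p * y₂ := by
    have : f₁ - f₂ = p * (y₁ + y₂) := by rw [hc', ← hy]; ring
    linear_combination this
  have hγ₁ : IsIntegral (Algebra.adjoin A {x}) (f₁ - p * y₁) := hf₁.sub ((intA₁ π).mul hy₁)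
  have hγ₂ : IsIntegral (Algebra.adjoin A {x⁻¹}) (f₁ - p * y₁) := by
    rw [hγ]; exact hf₂.add ((intA₂ π).mul hy₂)
  obtain ⟨g, hg⟩ := hconst _ (cech_inter hx hγ₁ hγ₂)
  -- `g ^ 2 - g` is divisible by `π`
  have hρ₁ : IsIntegral (Algebra.adjoin A {x})
      (p ^ e₀ * r₁ - (f₁ * y₁ + f₁ * y₁) + p * y₁ ^ 2 + y₁) :=
    (((((intA₁ π).pow e₀).mul hr₁).sub ((hf₁.mul hy₁).add (hf₁.mul hy₁))).add
      ((intA₁ π).mul (hy₁.pow 2))).add hy₁
  have hρ₂ : IsIntegral (Algebra.adjoin A {x⁻¹})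
      (p ^ e₀ * r₂ + (f₂ * y₂ + f₂ * y₂) + p * y₂ ^ 2 - y₂) :=
    (((((intA₂ π).pow e₀).mul hr₂).add ((hf₂.mul hy₂).add (hf₂.mul hy₂))).add
      ((intA₂ π).mul (hy₂.pow 2))).sub hy₂
  have e1 : (f₁ - p * y₁) ^ 2 - (f₁ - p * y₁)
      = p * (p ^ e₀ * r₁ - (f₁ * y₁ + f₁ * y₁) + p * y₁ ^ 2 + y₁) := by
    linear_combination hfr₁
  have e2 : (f₂ + p * y₂) ^ 2 - (f₂ + p * y₂)
      = p * (p ^ e₀ * r₂ + (f₂ * y₂ + f₂ * y₂) + p * y₂ ^ 2 - y₂) := by
    linear_combination hfr₂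
  have e12 : p ^ e₀ * r₁ - (f₁ * y₁ + f₁ * y₁) + p * y₁ ^ 2 + y₁
      = p ^ e₀ * r₂ + (f₂ * y₂ + f₂ * y₂) + p * y₂ ^ 2 - y₂ := by
    apply mul_left_cancel₀ hp0
    rw [← e1, ← e2, hγ]
  obtain ⟨a, ha⟩ := hconst _ (cech_inter hx hρ₁ (e12 ▸ hρ₂))
  have hinj : Function.Injective (algebraMap A E) := by
    rw [injective_iff_map_eq_zero]
    intro b hb
    have h2 : algebraMap L E (algebraMap A L b) = 0 := by
      rw [← IsScalarTower.algebraMap_apply]; exact hb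
    have h3 : algebraMap (Algebra.adjoin A {x}) L (algebraMap A _ b) = 0 := by
      rw [← IsScalarTower.algebraMap_apply]
      exact (map_eq_zero _).mp h2
    have h4 := (map_eq_zero_iff _ (IsFractionRing.injective (Algebra.adjoin A {x}) L)).mp h3
    by_contra hb0
    exact hx.trans ⟨Polynomial.C b, by simpa using hb0, by
      have : algebraMap A L b = 0 := by
        rw [IsScalarTower.algebraMap_apply A (Algebra.adjoin A {x}) L, h4, map_zero]
      simpa using this⟩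
  have hdvd : π ∣ g * (g - 1) := by
    refine ⟨a, hinj ?_⟩
    rw [map_mul, map_mul, map_sub, map_one, hg, ha, ← hp, ← e1]
    ring
  rcases hπ.prime.dvd_or_dvd hdvd with ⟨b, hb⟩ | ⟨b, hb⟩
  · left
    refine ⟨algebraMap A E b + y₁ - t₁, ((intA₁ b).add hy₁).sub ht₁, ?_⟩
    have : f₁ - p * y₁ = p * algebraMap A E b := by rw [← hg, hb, map_mul]
    linear_combination this - hft₁
  · right
    refine ⟨t₁ - algebraMap A E b - y₁, (ht₁.sub (intA₁ b)).sub hy₁, ?_⟩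
    have : f₁ - p * y₁ - 1 = p * algebraMap A E b := by
      rw [← hg, ← map_one (algebraMap A E), ← map_sub, hb, map_mul]
    linear_combination hft₁ - this

end CECH

end Fermat.Agent.KLB
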