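import Fermat.Agent.KLB.Abs.Loc

/-!
# KL-B abstract part, nodes SAT and PUR
-/

namespace Fermat.Agent.KLB

/-! ## Auxiliary constructions -/
namespace PurityAux

variable {S L E : Type*} [CommRing S] [IsDomain S] [Field L] [Field E]
  [Algebra S L] [IsFractionRing S L] [Algebra L E] [Algebra S E] [IsScalarTower S L E]

/-- The localisation `T⁻¹ S` as a subring of `L`. -/
def locSub (L : Type*) [Field L] [Algebra S L] (T : Submonoid S) : Subring L where
  carrier := {a | ∃ d ∈ T, ∃ s : S, algebraMap S L d * a = algebraMap S L s}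
  mul_mem' := by
    rintro a b ⟨d, hd, s, hs⟩ ⟨d', hd', s', hs'⟩
    refine ⟨d * d', T.mul_mem hd hd', s * s', ?_⟩
    rw [map_mul, map_mul, ← hs, ← hs']
    ring
  one_mem' := ⟨1, T.one_mem, 1, by simp⟩
  add_mem' := by
    rintro a b ⟨d, hd, s, hs⟩ ⟨d', hd', s', hs'⟩
    refine ⟨d * d', T.mul_mem hd hd', d' * s + d * s', ?_⟩
    rw [map_mul, map_add, map_mul, map_mul, ← hs, ← hs']
    ring
  zero_mem' := ⟨1, T.one_mem, 0, by simp⟩
  neg_mem' := by
    rintro a ⟨d, hd, s, hs⟩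
    refine ⟨d, hd, -s, ?_⟩
    rw [map_neg, ← hs]
    ring

omit [IsDomain S] [IsFractionRing S L] in
theorem isLocSub_locSub (T : Submonoid S) : IsLocSub T (locSub L T) := fun _ => Iff.rfl

theorem powers_le_nonZeroDivisors' {x : S} (hx : x ≠ 0) :
    Submonoid.powers x ≤ nonZeroDivisors S :=
  Submonoid.powers_le.mpr (mem_nonZeroDivisors_of_ne_zero hx)

theorem ndvd_le_nonZeroDivisors {π : S} (hπ : Prime π) : ndvd hπ ≤ nonZeroDivisors S := by
  intro d hd
  refine mem_nonZeroDivisors_of_ne_zero ?_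
  rintro rfl
  exact hd (dvd_zero π)

/-- The divisibility argument: `S_(π) ∩ S[1/(π κ)] ⊆ S[1/κ]`. -/
theorem mem_of_mem_of_mem {π : S} (hπ : Prime π) {Oπ : Subring L}
    (hOπ : IsLocSub (ndvd hπ) Oπ) {κ : S} {Oκ Oπκ : Subring L}
    (hOκ : IsLocSub (Submonoid.powers κ) Oκ) (hOπκ : IsLocSub (Submonoid.powers (π * κ)) Oπκ)
    (a : L) (h₁ : a ∈ Oπ) (h₂ : a ∈ Oπκ) : a ∈ Oκ := by
  obtain ⟨d, hd, s, hs⟩ := (hOπ a).mp h₁
  obtain ⟨_, ⟨k, rfl⟩, t, ht⟩ := (hOπκ a).mp h₂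
  replace ht : algebraMap S L ((π * κ) ^ k) * a = algebraMap S L t := ht
  have hinj : Function.Injective (algebraMap S L) := IsFractionRing.injective S L
  have h3 : π ^ k * (κ ^ k * s) = d * t := by
    apply hinj
    rw [map_mul, map_mul, map_mul, ← hs, ← ht, mul_pow, map_mul]
    ring
  have h4 : π ^ k ∣ t := hπ.pow_dvd_of_dvd_mul_left k hd ⟨_, h3.symm⟩
  obtain ⟨t', rfl⟩ := h4
  refine (hOκ a).mpr ⟨κ ^ k, ⟨k, rfl⟩, t', ?_⟩
  have h5 : algebraMap S L (π ^ k) ≠ 0 := by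
    rw [Ne, map_eq_zero_iff _ hinj]
    exact pow_ne_zero _ hπ.ne_zero
  apply mul_left_cancel₀ h5
  rw [← map_mul (algebraMap S L) (π ^ k) t', ← ht, mul_pow, map_mul]
  ring

/-- Enlarging the localisation preserves the hypothesis in the definition of `Unr`. -/
theorem trace_isIntegral_of_le [IsIntegrallyClosed S] {T T' : Submonoid S} {O O' : Subring L}
    (hO : IsLocSub T O) (hO' : IsLocSub T' O') (hT : T ≤ nonZeroDivisors S)
    (hT' : T' ≤ nonZeroDivisors S) (hle : ∀ a : L, a ∈ O → a ∈ O') {y : E}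
    (hy : ∀ z : E, IsIntegral O z → IsIntegral O (Algebra.trace L E (y * z)))
    (z : E) (hz : IsIntegral O' z) : IsIntegral O' (Algebra.trace L E (y * z)) := by
  obtain ⟨d, hd, hdz⟩ := (hO'.isIntegral_iff hT' z).mp hz
  have h1 : IsIntegral O (algebraMap S E d * z) := hO.isIntegral_of hdz
  have h2 : Algebra.trace L E (y * (algebraMap S E d * z)) ∈ O' :=
    hle _ (hO.mem_of_isIntegral hT (hy _ h1))
  have hd0 : algebraMap S L d ≠ 0 := by
    rw [Ne, map_eq_zero_iff _ (IsFractionRing.injective S L)]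
    exact nonZeroDivisors.ne_zero (hT' hd)
  have h3 : Algebra.trace L E (y * (algebraMap S E d * z))
      = algebraMap S L d * Algebra.trace L E (y * z) := by
    rw [IsScalarTower.algebraMap_apply S L E, mul_left_comm, ← Algebra.smul_def, map_smul,
      smul_eq_mul]
  have h4 : Algebra.trace L E (y * z) ∈ O' := by
    have : Algebra.trace L E (y * z)
        = (algebraMap S L d)⁻¹ * Algebra.trace L E (y * (algebraMap S E d * z)) := by
      rw [h3, inv_mul_cancel_left₀ hd0]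
    rw [this]
    exact O'.mul_mem (hO'.inv_mem hd) h2
  exact (isIntegral_algebraMap (R := O') (A := L) (x := ⟨_, h4⟩))

end PurityAux

section abstract

open PurityAux

variable {S L E : Type*} [CommRing S] [IsDomain S] [IsIntegrallyClosed S] [Field L] [Field E]
  [Algebra S L] [IsFractionRing S L] [Algebra L E] [Algebra S E] [IsScalarTower S L E]
  {π : S} (hπ : Prime π) {Oπ : Subring L} (hOπ : IsLocSub (ndvd hπ) Oπ)

include hOπ

/-! ## SAT : `R_π ∩ π⁻¹ R = R` -/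
theorem sat {y : E} (h₁ : IsIntegral Oπ y) (h₂ : IsIntegral S (algebraMap S E π * y)) :
    IsIntegral S y := by
  have hO1 : IsLocSub (Submonoid.powers (1 : S)) (locSub L (Submonoid.powers (1 : S))) :=
    isLocSub_locSub _
  have hO2 : IsLocSub (Submonoid.powers (π * 1)) (locSub L (Submonoid.powers (π * 1))) :=
    isLocSub_locSub _
  have hπ1 : π * 1 ≠ 0 := by rw [mul_one]; exact hπ.ne_zero
  have hy2 : IsIntegral (locSub L (Submonoid.powers (π * 1))) y :=
    (hO2.isIntegral_iff (powers_le_nonZeroDivisors' hπ1) y).mpr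
      ⟨π * 1, Submonoid.mem_powers _, by rwa [mul_one]⟩
  have h := isIntegral_of_inter Oπ _ _
    (fun a ha => hOπ.mem_of_isIntegral (ndvd_le_nonZeroDivisors hπ) ha)
    (fun a ha => hO2.mem_of_isIntegral (powers_le_nonZeroDivisors' hπ1) ha)
    (mem_of_mem_of_mem hπ hOπ hO1 hO2) h₁ hy2
  obtain ⟨_, ⟨k, rfl⟩, hd⟩ := (hO1.isIntegral_iff (powers_le_nonZeroDivisors' one_ne_zero) y).mp h
  simpa using hd

/-! ## PUR : purity -/
theorem purity {κ : S} (hκ : ¬ π ∣ κ) {Oκ Oπκ : Subring L}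
    (hOκ : IsLocSub (Submonoid.powers κ) Oκ) (hOπκ : IsLocSub (Submonoid.powers (π * κ)) Oπκ)
    (hv : Unr Oπ L E) (hh : Unr Oπκ L E) : Unr Oκ L E := by
  have hκ0 : κ ≠ 0 := by
    rintro rfl
    exact hκ (dvd_zero π)
  have hπκ0 : π * κ ≠ 0 := mul_ne_zero hπ.ne_zero hκ0
  have hTκ := powers_le_nonZeroDivisors' hκ0
  have hTπκ := powers_le_nonZeroDivisors' hπκ0
  have hTπ := ndvd_le_nonZeroDivisors hπ
  have hle1 : ∀ a : L, a ∈ Oκ → a ∈ Oπ := by
    intro a ha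
    obtain ⟨_, ⟨k, rfl⟩, s, hs⟩ := (hOκ a).mp ha
    exact (hOπ a).mpr ⟨κ ^ k, fun h => hκ (hπ.dvd_of_dvd_pow h), s, hs⟩
  have hle2 : ∀ a : L, a ∈ Oκ → a ∈ Oπκ := by
    intro a ha
    obtain ⟨_, ⟨k, rfl⟩, s, hs⟩ := (hOκ a).mp ha
    refine (hOπκ a).mpr ⟨(π * κ) ^ k, ⟨k, rfl⟩, π ^ k * s, ?_⟩
    rw [mul_pow, map_mul, map_mul, ← hs]
    ring
  intro y hy
  have hA : IsIntegral Oπ y := hv y (trace_isIntegral_of_le hOκ hOπ hTκ hTπ hle1 hy)
  have hB : IsIntegral Oπκ y := hh y (trace_isIntegral_of_le hOκ hOπκ hTκ hTπκ hle2 hy)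
  exact isIntegral_of_inter Oπ Oπκ Oκ
    (fun a ha => hOπ.mem_of_isIntegral hTπ ha)
    (fun a ha => hOπκ.mem_of_isIntegral hTπκ ha)
    (mem_of_mem_of_mem hπ hOπ hOκ hOπκ) hA hB

end abstract

end Fermat.Agent.KLB
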