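import Fermat.Agent.KLB.Abs.Sh2

/-!
# KL-B abstract part, node TR (proofs: helper231)
Traces of elements which are "nilpotent modulo `κ`" are divisible by `κ` (for `κ` squarefree
modulo `π`).
-/

set_option linter.unusedSectionVars false

namespace Fermat.Agent.KLB

/-- General form: `O` integrally closed in `L`; if `z ^ (N+1) = κ w` with `z`, `w` integral over
`O`, then some power of `Tr z` is divisible by `κ` in `O`. -/
theorem trace_pow_mem_of_pow_eq {L E : Type*} [Field L] [Field E] [Algebra L E]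
    [FiniteDimensional L E] [Algebra.IsSeparable L E] (O : Subring L)
    (hO : ∀ a : L, IsIntegral O a → a ∈ O) {κ : L} (hκ : κ ∈ O) {z w : E} (N : ℕ)
    (hz : IsIntegral O z) (hw : IsIntegral O w) (hzw : z ^ (N + 1) = algebraMap L E κ * w) :
    ∃ (M : ℕ) (v : L), v ∈ O ∧ Algebra.trace L E z ^ M = κ * v := by
  classical
  let Ω := AlgebraicClosure E
  let Int := integralClosure O Ω
  have hσ : ∀ (σ : E →ₐ[L] Ω) {y : E}, IsIntegral O y → IsIntegral O (σ y) :=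
    fun σ y hy => hy.map (σ.restrictScalars O)
  have hκ' : IsIntegral O (algebraMap L Ω κ) :=
    (isIntegral_algebraMap (R := O) (A := Ω) (x := ⟨κ, hκ⟩))
  let κ' : Int := ⟨algebraMap L Ω κ, hκ'⟩
  have hrad : ∀ σ : E →ₐ[L] Ω, (⟨σ z, hσ σ hz⟩ : Int) ∈ (Ideal.span {κ'}).radical := by
    intro σ
    refine ⟨N + 1, Ideal.mem_span_singleton'.mpr ⟨⟨σ w, hσ σ hw⟩, ?_⟩⟩
    apply Subtype.ext
    show σ w * algebraMap L Ω κ = (σ z) ^ (N + 1)
    rw [← map_pow, hzw, map_mul, AlgHom.commutes, mul_comm]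
  have hsum : (∑ σ : E →ₐ[L] Ω, (⟨σ z, hσ σ hz⟩ : Int)) ∈ (Ideal.span {κ'}).radical :=
    Ideal.sum_mem _ (fun σ _ => hrad σ)
  obtain ⟨M, hM⟩ := hsum
  obtain ⟨v', hv'⟩ := Ideal.mem_span_singleton'.mp hM
  have htr : algebraMap L Ω (Algebra.trace L E z) = ∑ σ : E →ₐ[L] Ω, σ z :=
    trace_eq_sum_embeddings Ω
  have hcoe : ((∑ σ : E →ₐ[L] Ω, (⟨σ z, hσ σ hz⟩ : Int) : Int) : Ω) = ∑ σ : E →ₐ[L] Ω, σ z := by
    rw [AddSubmonoidClass.coe_finsetSum]
  have key : algebraMap L Ω (Algebra.trace L E z ^ M) = (v' : Ω) * algebraMap L Ω κ := by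
    have := congrArg (Subtype.val) hv'
    rw [map_pow, htr, ← hcoe]
    exact this.symm
  rcases eq_or_ne κ 0 with rfl | hκ0
  · refine ⟨M, 0, O.zero_mem, ?_⟩
    rw [map_zero, mul_zero] at key
    rw [mul_zero]
    exact (map_eq_zero (algebraMap L Ω)).mp key
  · refine ⟨M, Algebra.trace L E z ^ M / κ, hO _ ?_, by field_simp⟩
    have h1 : algebraMap L Ω (Algebra.trace L E z ^ M / κ) = (v' : Ω) := by
      rw [map_div₀, key, mul_div_assoc, div_self ((map_ne_zero _).mpr hκ0), mul_one]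
    have h2 : IsIntegral O (algebraMap L Ω (Algebra.trace L E z ^ M / κ)) := h1 ▸ v'.2
    exact (isIntegral_algebraMap_iff (algebraMap L Ω).injective).mp h2

section abstract

variable {S L E : Type*} [CommRing S] [IsDomain S] [IsIntegrallyClosed S] [Field L] [Field E]
  [Algebra S L] [IsFractionRing S L] [Algebra L E] [Algebra S E] [IsScalarTower S L E]
  {π : S} (hπ : Prime π) {Oπ : Subring L} (hOπ : IsLocSub (ndvd hπ) Oπ)
  [FiniteDimensional L E] [Algebra.IsSeparable L E]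
  [IsPrincipalIdealRing (S ⧸ Ideal.span {π})]

/-- `(t₀ + π β) ^ M = t₀ ^ M + π γ` with `γ ∈ Oπ`. -/
theorem TraceRad.add_pow_aux {Oπ : Subring L} (hS : ∀ s : S, algebraMap S L s ∈ Oπ) (π t₀ : S)
    {β : L} (hβ : β ∈ Oπ) (M : ℕ) :
    ∃ γ ∈ Oπ, (algebraMap S L t₀ + algebraMap S L π * β) ^ M =
      algebraMap S L (t₀ ^ M) + algebraMap S L π * γ := by
  induction M with
  | zero => exact ⟨0, Oπ.zero_mem, by simp⟩
  | succ M ih =>
    obtain ⟨γ, hγ, h⟩ := ih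
    refine ⟨algebraMap S L (t₀ ^ M) * β + γ * algebraMap S L t₀ + algebraMap S L π * γ * β,
      Oπ.add_mem (Oπ.add_mem (Oπ.mul_mem (hS _) hβ) (Oπ.mul_mem hγ (hS _)))
        (Oπ.mul_mem (Oπ.mul_mem (hS _) hγ) hβ), ?_⟩
    rw [pow_succ, h, pow_succ, map_mul]
    ring

include hOπ

/-- `π Oπ ∩ S = π S`. -/
theorem TraceRad.dvd_of_eq_mul {x : S} {γ : L} (hγ : γ ∈ Oπ)
    (h : algebraMap S L x = algebraMap S L π * γ) : π ∣ x := by
  obtain ⟨d, hd, s, hs⟩ := (hOπ γ).mp hγ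
  have h1 : d * x = π * s := by
    apply IsFractionRing.injective S L
    rw [map_mul, map_mul, h, ← hs]
    ring
  exact (hπ.dvd_or_dvd (Dvd.intro _ h1.symm)).resolve_left hd

/-- `Tr (ε a) ∈ κ S + π Oπ` if `a ^ (N+1) ∈ κ R`. -/
theorem trace_idemMod_mul_of_pow {κ : S}
    (hκ : Squarefree (Ideal.Quotient.mk (Ideal.span {π}) κ)) (N : ℕ) {ε a b : E}
    (hε : IdemMod S Oπ π ε) (ha : IsIntegral S a) (hb : IsIntegral S b)
    (hab : a ^ (N + 1) = algebraMap S E κ * b) :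
    ∃ (t : S) (b' : L), b' ∈ Oπ ∧
      Algebra.trace L E (ε * a) = algebraMap S L (κ * t) + algebraMap S L π * b' := by
  have hS := hOπ.algebraMap_mem
  set O := Sh hS π with hOdef
  have hO : ∀ x : L, IsIntegral O x → x ∈ O := fun x hx => Sh.mem_of_isIntegral hπ hOπ hx
  have hεi : IsIntegral O ε := isIntegral_Sh_of_idemMod hπ hOπ hε
  have hai : IsIntegral O a := isIntegral_Sh_of_isIntegral hπ hOπ ha
  have hbi : IsIntegral O b := isIntegral_Sh_of_isIntegral hπ hOπ hb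
  have hz : IsIntegral O (ε * a) := hεi.mul hai
  have hw : IsIntegral O (ε ^ (N + 1) * b) := (hεi.pow _).mul hbi
  have hzw : (ε * a) ^ (N + 1) = algebraMap L E (algebraMap S L κ) * (ε ^ (N + 1) * b) := by
    rw [mul_pow, hab, ← IsScalarTower.algebraMap_apply S L E]
    ring
  obtain ⟨M, v, hv, hT⟩ := trace_pow_mem_of_pow_eq O hO (algebraMap_mem_Sh hS π κ) N hz hw hzw
  have hTmem : Algebra.trace L E (ε * a) ∈ O := hO _ (Algebra.isIntegral_trace hz)
  obtain ⟨t₀, β, hβ, hTeq⟩ := hTmem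
  obtain ⟨v₀, β', hβ', hveq⟩ := hv
  obtain ⟨γ, hγ, hpow⟩ := TraceRad.add_pow_aux hS π t₀ hβ M
  have hdvd : π ∣ t₀ ^ M - κ * v₀ := by
    apply TraceRad.dvd_of_eq_mul hπ hOπ
      (γ := algebraMap S L κ * β' - γ) (Oπ.sub_mem (Oπ.mul_mem (hS κ) hβ') hγ)
    rw [hTeq, hpow, hveq] at hT
    rw [map_sub, map_mul]
    linear_combination hT
  have : (Ideal.span {π}).IsPrime := (Ideal.span_singleton_prime hπ.ne_zero).mpr hπ
  let mk := Ideal.Quotient.mk (Ideal.span {π})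
  have hq : mk κ ∣ mk t₀ ^ M := by
    refine ⟨mk v₀, ?_⟩
    rw [← map_pow, ← map_mul, ← sub_eq_zero, ← map_sub]
    exact Ideal.Quotient.eq_zero_iff_mem.mpr (Ideal.mem_span_singleton.mpr hdvd)
  have hq' : mk κ ∣ mk t₀ := by
    rcases Nat.eq_zero_or_pos M with rfl | hM
    · rw [pow_zero] at hq
      exact (isUnit_of_dvd_one hq).dvd
    · exact (hκ.dvd_pow_iff_dvd hM.ne').mp hq
  obtain ⟨tb, htb⟩ := hq'
  obtain ⟨t, rfl⟩ := Ideal.Quotient.mk_surjective tb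
  have h2 : π ∣ t₀ - κ * t := by
    rw [← Ideal.mem_span_singleton, ← Ideal.Quotient.eq_zero_iff_mem, map_sub, map_mul]
    exact sub_eq_zero.mpr htb
  obtain ⟨t', ht'⟩ := h2
  refine ⟨t, algebraMap S L t' + β, Oπ.add_mem (hS t') hβ, ?_⟩
  have h3 : t₀ = κ * t + π * t' := by rw [← ht']; ring
  rw [hTeq, h3, map_add, map_mul _ π t']
  ring

end abstract

end Fermat.Agent.KLB
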