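import Fermat.Agent.KLB.Abs.Free
import Fermat.Agent.KLB.Abs.TraceRad

/-!
# KL-B abstract part, node CHART
Idempotents of the special fibre are regular on a whole chart, if `E/L` is unramified at `(π)` and
the codifferent of the generic fibre is bounded by `κ`, where `κ` is squarefree modulo `π`.
(proved by helper90)
-/

namespace Fermat.Agent.KLB

/-- `TameBound O L E κ N`: every `y` in the codifferent of `E/L` relative to `O` satisfies
`κ ^ N y ^ (N+1)` integral over `O`.  (For a Dedekind ring `O` of characteristic zero: `E/L` is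
unramified outside `κ`, all ramification indices are `≤ N + 1`.) -/
def TameBound (O L E : Type*) [CommRing O] [Field L] [Field E] [Algebra O L] [Algebra O E]
    [Algebra L E] (κ : E) (N : ℕ) : Prop :=
  ∀ y : E, (∀ z : E, IsIntegral O z → IsIntegral O (Algebra.trace L E (y * z))) →
    IsIntegral O (κ ^ N * y ^ (N + 1))

namespace ChartAux

section aux

variable {S L E : Type*} [CommRing S] [Field L] [Field E]
  [Algebra S L] [Algebra L E] [Algebra S E] [IsScalarTower S L E]

theorem trace_algebraMap_mul' (t : S) (u : E) :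
    Algebra.trace L E (algebraMap S E t * u) = algebraMap S L t * Algebra.trace L E u := by
  rw [IsScalarTower.algebraMap_apply S L E, ← Algebra.smul_def, map_smul, smul_eq_mul]

theorem isIntegral_of_mem' {O : Subring L} {a : L} (ha : a ∈ O) : IsIntegral O a :=
  isIntegral_algebraMap (R := O) (x := ⟨a, ha⟩)

theorem isIntegral_algebraMap_of_mem {O : Subring L} {a : L} (ha : a ∈ O) :
    IsIntegral O (algebraMap L E a) :=
  isIntegral_algebraMap (R := O) (A := E) (x := ⟨a, ha⟩)

end aux

section inter

open PurityAux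

variable {S L E : Type*} [CommRing S] [IsDomain S] [IsIntegrallyClosed S] [Field L] [Field E]
  [Algebra S L] [IsFractionRing S L] [Algebra L E] [Algebra S E] [IsScalarTower S L E]
  {π : S} (hπ : Prime π) {Oπ : Subring L} (hOπ : IsLocSub (ndvd hπ) Oπ)

include hOπ

/-- `R_π ∩ R[1/π] = R`. -/
theorem isIntegral_of_isIntegral_of_isIntegral {OK : Subring L}
    (hOK : IsLocSub (Submonoid.powers π) OK) {y : E} (h₁ : IsIntegral Oπ y)
    (h₂ : IsIntegral OK y) : IsIntegral S y := by
  have hO1 : IsLocSub (Submonoid.powers (1 : S)) (locSub L (Submonoid.powers (1 : S))) :=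
    isLocSub_locSub _
  have hO2 : IsLocSub (Submonoid.powers (π * 1)) OK := by rwa [mul_one]
  have hπ1 : π * 1 ≠ 0 := by rw [mul_one]; exact hπ.ne_zero
  have h := isIntegral_of_inter Oπ _ _
    (fun a ha => hOπ.mem_of_isIntegral (ndvd_le_nonZeroDivisors hπ) ha)
    (fun a ha => hO2.mem_of_isIntegral (powers_le_nonZeroDivisors' hπ1) ha)
    (mem_of_mem_of_mem hπ hOπ hO1 hO2) h₁ h₂
  obtain ⟨_, ⟨k, rfl⟩, hd⟩ := (hO1.isIntegral_iff (powers_le_nonZeroDivisors' one_ne_zero) y).mp h
  simpa using hd

end inter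

end ChartAux

section abstract

variable {S L E : Type*} [CommRing S] [IsDomain S] [IsIntegrallyClosed S] [Field L] [Field E]
  [Algebra S L] [IsFractionRing S L] [Algebra L E] [Algebra S E] [IsScalarTower S L E]
  {π : S} (hπ : Prime π) {Oπ : Subring L} (hOπ : IsLocSub (ndvd hπ) Oπ)

include hOπ

variable [FiniteDimensional L E] [Algebra.IsSeparable L E] [IsNoetherianRing S]
  [IsPrincipalIdealRing (S ⧸ Ideal.span {π})]

open ChartAux in
theorem nearInt_of_idemMod {OK : Subring L} (hOK : IsLocSub (Submonoid.powers π) OK) {κ : S}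
    (hκ : Squarefree (Ideal.Quotient.mk (Ideal.span {π}) κ)) (N : ℕ)
    (hv : Unr Oπ L E) (hg : TameBound OK L E (algebraMap S E κ) N)
    {ε : E} (hε : IdemMod S Oπ π ε) : NearInt S Oπ π ε := by
  classical
  obtain ⟨n, c, s, hc, ⟨s', hs'⟩, hbasis⟩ := exists_basis_near (E := E) hπ hOπ
  have hinj : Function.Injective (algebraMap S L) := IsFractionRing.injective S L
  have hTπ : ndvd hπ ≤ nonZeroDivisors S := PurityAux.ndvd_le_nonZeroDivisors hπ
  have hTK : Submonoid.powers π ≤ nonZeroDivisors S :=
    PurityAux.powers_le_nonZeroDivisors' hπ.ne_zero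
  -- `π` does not divide `κ`
  have hIp : (Ideal.span {π}).IsPrime := (Ideal.span_singleton_prime hπ.ne_zero).2 hπ
  have : IsDomain (S ⧸ Ideal.span {π}) := Ideal.Quotient.isDomain _
  have hκπ : κ ∈ ndvd hπ := by
    intro h
    have h0 : Ideal.Quotient.mk (Ideal.span {π}) κ = 0 :=
      Ideal.Quotient.eq_zero_iff_mem.mpr (Ideal.mem_span_singleton.mpr h)
    rw [h0] at hκ
    exact not_squarefree_zero hκ
  have hκL : algebraMap S L κ ≠ 0 := fun h =>
    (nonZeroDivisors.ne_zero (hTπ hκπ)) (hinj (h.trans (map_zero _).symm))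
  have hκE : algebraMap S E κ ≠ 0 := by
    rw [IsScalarTower.algebraMap_apply S L E]
    exact fun h => hκL ((algebraMap L E).injective (h.trans (map_zero _).symm))
  -- the trace-dual basis
  let cd := (Algebra.traceForm L E).dualBasis (traceForm_nondegenerate L E) c
  have hcd : ∀ i j, Algebra.trace L E (cd i * c j) = if j = i then 1 else 0 := fun i j => by
    have := (Algebra.traceForm L E).apply_dualBasis_left (traceForm_nondegenerate L E) c i j
    rwa [Algebra.traceForm_apply] at this
  -- (1)
  have h1 : ∀ i, ∀ z : E, IsIntegral S z →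
      ∃ a : S, Algebra.trace L E (algebraMap S E s * cd i * z) = algebraMap S L a := by
    intro i z hz
    obtain ⟨a, ha⟩ := hbasis z hz
    refine ⟨a i, ?_⟩
    have h2 : algebraMap S E s * cd i * z = ∑ j, algebraMap S E (a j) * (cd i * c j) := by
      rw [mul_right_comm, ha, Finset.sum_mul]
      exact Finset.sum_congr rfl fun j _ => by ring
    rw [h2, map_sum]
    simp only [trace_algebraMap_mul', hcd]
    simp
  -- general localisation step
  have hloc : ∀ (T : Submonoid S) (O : Subring L), IsLocSub T O → T ≤ nonZeroDivisors S →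
      ∀ i, ∀ z : E, IsIntegral O z →
        IsIntegral O (Algebra.trace L E (algebraMap S E s * cd i * z)) := by
    intro T O hO hT i z hz
    obtain ⟨d, hd, hdz⟩ := (hO.isIntegral_iff hT z).1 hz
    obtain ⟨a, ha⟩ := h1 i _ hdz
    have hdL : algebraMap S L d ≠ 0 := fun h =>
      (nonZeroDivisors.ne_zero (hT hd)) (hinj (h.trans (map_zero _).symm))
    have h3 : Algebra.trace L E (algebraMap S E s * cd i * z)
        = (algebraMap S L d)⁻¹ * algebraMap S L a := by
      rw [← ha, mul_left_comm, trace_algebraMap_mul', inv_mul_cancel_left₀ hdL]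
    rw [h3]
    exact isIntegral_of_mem' (O.mul_mem (hO.inv_mem hd) (hO.algebraMap_mem _))
  -- (2)
  have h2 : ∀ i, IsIntegral Oπ (algebraMap S E s * cd i) := fun i =>
    hv _ (hloc _ _ hOπ hTπ i)
  have hS : ∀ t : S, IsIntegral Oπ (algebraMap S E t) := fun t =>
    hOπ.isIntegral_of isIntegral_algebraMap
  -- (3)
  have h3 : ∀ i, IsIntegral S (algebraMap S E κ ^ N * (algebraMap S E s * cd i) ^ (N + 1)) :=
    fun i => isIntegral_of_isIntegral_of_isIntegral hπ hOπ hOK
      (((hS κ).pow N).mul ((h2 i).pow (N + 1))) (hg _ (hloc _ _ hOK hTK i))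
  -- (4)
  have h4eq : ∀ i, (algebraMap S E κ * (algebraMap S E s * cd i)) ^ (N + 1) =
      algebraMap S E κ * (algebraMap S E κ ^ N * (algebraMap S E s * cd i) ^ (N + 1)) := by
    intro i
    rw [mul_pow, pow_succ' (algebraMap S E κ) N, mul_assoc]
  have h4 : ∀ i, IsIntegral S (algebraMap S E κ * (algebraMap S E s * cd i)) := fun i =>
    IsIntegral.of_pow (Nat.succ_pos N) (by
      rw [h4eq]
      exact isIntegral_algebraMap.mul (h3 i))
  -- (5)
  choose t b' hb' htb using fun i =>
    trace_idemMod_mul_of_pow hπ hOπ hκ N hε (h4 i) (h3 i) (h4eq i)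
  have h5 : ∀ i, algebraMap S L s * Algebra.trace L E (cd i * ε) =
      algebraMap S L (t i) + algebraMap S L π * ((algebraMap S L κ)⁻¹ * b' i) := by
    intro i
    have h6 := htb i
    rw [mul_left_comm, trace_algebraMap_mul', mul_left_comm, trace_algebraMap_mul',
      mul_comm ε, map_mul (algebraMap S L)] at h6
    apply mul_left_cancel₀ hκL
    rw [h6]
    field_simp
  -- (6)
  have hrepr : ∀ i, Algebra.trace L E (cd i * ε) = c.repr ε i := by
    intro i
    conv_lhs => rw [← c.sum_repr ε]
    rw [Finset.mul_sum, map_sum]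
    simp only [mul_smul_comm, map_smul, hcd, smul_eq_mul]
    simp
  have h6 : algebraMap S E s * ε = ∑ i, algebraMap S E (t i) * c i +
      algebraMap S E π * ∑ i, algebraMap L E ((algebraMap S L κ)⁻¹ * b' i) * c i := by
    conv_lhs => rw [← c.sum_repr ε]
    rw [Finset.mul_sum, Finset.mul_sum, ← Finset.sum_add_distrib]
    refine Finset.sum_congr rfl fun i _ => ?_
    rw [← hrepr, Algebra.smul_def, ← mul_assoc, IsScalarTower.algebraMap_apply S L E s, ← map_mul,
      h5, map_add, map_mul, ← IsScalarTower.algebraMap_apply S L E,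
      ← IsScalarTower.algebraMap_apply S L E]
    ring
  -- (7)
  refine ⟨∑ i, algebraMap S E (t i) * c i,
    ∑ i, algebraMap L E ((algebraMap S L κ)⁻¹ * b' i) * c i - algebraMap S E s' * ε, ?_, ?_, ?_⟩
  · exact IsIntegral.sum _ fun i _ => isIntegral_algebraMap.mul (hc i)
  · refine IsIntegral.sub (IsIntegral.sum _ fun i _ => ?_) ((hS s').mul hε.1)
    exact (isIntegral_algebraMap_of_mem (Oπ.mul_mem (hOπ.inv_mem hκπ) (hb' i))).mul
      (hOπ.isIntegral_of (hc i))
  · have hs1 : algebraMap S E s = 1 + algebraMap S E π * algebraMap S E s' := by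
      rw [← map_mul, ← hs', map_sub, map_one]
      ring
    rw [hs1] at h6
    linear_combination h6

end abstract

end Fermat.Agent.KLB
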