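import Fermat.Agent.KLB.Abs.Defs

/-!
# KL-B abstract part, node DESC

Descent of `NearInt` along a finite extension `E'/E` whose degree is invertible in `S`: apply the
trace and divide by the degree.
-/

namespace Fermat.Agent.KLB

/-! ## DESC : descent along an extension of degree prime to the residue characteristic -/
section DESC

variable {S S' L L' E E' : Type*} [CommRing S] [CommRing S'] [Field L] [Field L'] [Field E]
  [Field E'] [Algebra S L] [Algebra L E] [Algebra S E] [Algebra S' L'] [Algebra L' E']
  [Algebra S' E'] [Algebra E E'] [Algebra L E'] [Algebra S E'] [IsScalarTower L E E']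
  [IsScalarTower S E E'] [FiniteDimensional E E']

theorem descent (Oπ : Subring L) (Oπ' : Subring L') (π : S) (π' : S')
    (hππ' : algebraMap S' E' π' = algebraMap S E' π)
    (h₁ : ∀ y : E', IsIntegral S' y → IsIntegral S y)
    (h₂ : ∀ y : E', IsIntegral Oπ' y → IsIntegral Oπ y)
    (w : S) (hw : algebraMap S E w * (Module.finrank E E' : E) = 1)
    (hwO : IsIntegral Oπ (algebraMap S E w))
    {y : E} (h : NearInt S' Oπ' π' (algebraMap E E' y)) : NearInt S Oπ π y := by
  obtain ⟨e, r, he, hr, hy⟩ := h
  have hTe : IsIntegral S (Algebra.trace E E' e) := Algebra.isIntegral_trace (h₁ e he)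
  have hTr : IsIntegral Oπ (Algebra.trace E E' r) := Algebra.isIntegral_trace (h₂ r hr)
  have hT : (Module.finrank E E' : E) * y
      = Algebra.trace E E' e + algebraMap S E π * Algebra.trace E E' r := by
    have h3 := congrArg (Algebra.trace E E') hy
    rw [Algebra.trace_algebraMap, map_add, hππ', IsScalarTower.algebraMap_apply S E E',
      ← Algebra.smul_def, map_smul, smul_eq_mul, nsmul_eq_mul] at h3
    exact h3
  refine ⟨algebraMap S E w * Algebra.trace E E' e, algebraMap S E w * Algebra.trace E E' r,
    isIntegral_algebraMap.mul hTe, hwO.mul hTr, ?_⟩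
  calc y = (algebraMap S E w * (Module.finrank E E' : E)) * y := by rw [hw, one_mul]
    _ = algebraMap S E w * ((Module.finrank E E' : E) * y) := by ring
    _ = _ := by rw [hT]; ring

end DESC

end Fermat.Agent.KLB
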