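import Fermat.Agent.KLB.Abs.Purity

/-!
# KL-B abstract part, node FREE
-/

namespace Fermat.Agent.KLB

private theorem algebraMap_SE_injective (S L E : Type*) [CommRing S] [IsDomain S] [Field L]
    [Field E] [Algebra S L] [IsFractionRing S L] [Algebra L E] [Algebra S E]
    [IsScalarTower S L E] : Function.Injective (algebraMap S E) := by
  rw [IsScalarTower.algebraMap_eq S L E]
  exact (algebraMap L E).injective.comp (IsFractionRing.injective S L)

section abstract

variable {S L E : Type*} [CommRing S] [IsDomain S] [IsIntegrallyClosed S] [Field L] [Field E]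
  [Algebra S L] [IsFractionRing S L] [Algebra L E] [Algebra S E] [IsScalarTower S L E]
  {π : S} (hπ : Prime π) {Oπ : Subring L} (hOπ : IsLocSub (ndvd hπ) Oπ)

include hOπ

/-- torsion-freeness of `R / π R` over `S / π`, in element form -/
private theorem exists_eq_pi_mul {d : S} (hd : ¬ π ∣ d) {a b : E} (ha : IsIntegral S a)
    (hb : IsIntegral S b) (h : algebraMap S E d * a = algebraMap S E π * b) :
    ∃ c : E, IsIntegral S c ∧ a = algebraMap S E π * c := by
  have hπE : algebraMap S E π ≠ 0 := by
    intro h0
    exact hπ.ne_zero (algebraMap_SE_injective S L E (by rw [h0, map_zero]))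
  have hT : ndvd hπ ≤ nonZeroDivisors S := by
    intro x hx
    rw [mem_nonZeroDivisors_iff_ne_zero]
    rintro rfl
    exact hx (dvd_zero π)
  refine ⟨a / algebraMap S E π, ?_, by field_simp⟩
  apply sat hπ hOπ
  · rw [hOπ.isIntegral_iff hT]
    refine ⟨d, hd, ?_⟩
    have : algebraMap S E d * (a / algebraMap S E π) = b := by
      rw [← mul_div_assoc, h]
      field_simp
    rw [this]
    exact hb
  · have : algebraMap S E π * (a / algebraMap S E π) = a := by field_simp
    rw [this]
    exact ha

variable [FiniteDimensional L E] [Algebra.IsSeparable L E] [IsNoetherianRing S]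
  [IsPrincipalIdealRing (S ⧸ Ideal.span {π})]

/-! ## FREE : a basis near the special fibre -/
theorem exists_basis_near :
    ∃ (n : ℕ) (c : Module.Basis (Fin n) L E) (s : S), (∀ i, IsIntegral S (c i)) ∧ π ∣ s - 1 ∧
      ∀ y : E, IsIntegral S y →
        ∃ a : Fin n → S, algebraMap S E s * y = ∑ i, algebraMap S E (a i) * c i := by
  classical
  have hinj : Function.Injective (algebraMap S E) := algebraMap_SE_injective S L E
  have hπE : algebraMap S E π ≠ 0 := by
    intro h0
    exact hπ.ne_zero (hinj (by rw [h0, map_zero]))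
  let R := integralClosure S E
  have : Module.Finite S R := IsIntegralClosure.finite S L E R
  let I : Ideal S := Ideal.span {π}
  have hIp : I.IsPrime := (Ideal.span_singleton_prime hπ.ne_zero).2 hπ
  have : IsDomain (S ⧸ I) := Ideal.Quotient.isDomain I
  have : IsPrincipalIdealRing (S ⧸ I) := ‹_›
  have hne : ∀ r : S, r - 1 ∈ I → r ≠ 0 := by
    rintro r hr rfl
    rw [zero_sub, Ideal.mem_span_singleton, dvd_neg] at hr
    exact hπ.not_dvd_one hr
  have hmemI : ∀ x : R, x ∈ (I • ⊤ : Submodule S R) ↔ ∃ b : R, x = π • b := by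
    intro x
    rw [Submodule.ideal_span_singleton_smul, Submodule.mem_smul_pointwise_iff_exists]
    constructor
    · rintro ⟨b, -, hb⟩
      exact ⟨b, hb.symm⟩
    · rintro ⟨b, hb⟩
      exact ⟨b, trivial, hb.symm⟩
  have : IsScalarTower S (S ⧸ I) (R ⧸ (I • ⊤ : Submodule S R)) :=
    (Module.isTorsionBySet_quotient_ideal_smul R I).isScalarTower
  have : Module.Finite (S ⧸ I) (R ⧸ (I • ⊤ : Submodule S R)) :=
    Module.Finite.of_restrictScalars_finite S (S ⧸ I) _
  have : Module.IsTorsionFree (S ⧸ I) (R ⧸ (I • ⊤ : Submodule S R)) := by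
    apply Module.IsTorsionFree.of_smul_eq_zero
    intro r m hrm
    obtain ⟨d, rfl⟩ := Ideal.Quotient.mk_surjective r
    obtain ⟨a, rfl⟩ := Submodule.Quotient.mk_surjective _ m
    rw [Module.Quotient.mk_smul_mk, Submodule.Quotient.mk_eq_zero, hmemI] at hrm
    obtain ⟨b, hb⟩ := hrm
    by_cases hd : π ∣ d
    · left
      rw [Ideal.Quotient.eq_zero_iff_mem]
      exact Ideal.mem_span_singleton.2 hd
    · right
      have h1 : algebraMap S E d * (a : E) = algebraMap S E π * (b : E) := by
        have := congrArg (Subtype.val) hb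
        simpa [Algebra.smul_def] using this
      obtain ⟨c, hc, hac⟩ := exists_eq_pi_mul hπ hOπ hd a.2 b.2 h1
      rw [Submodule.Quotient.mk_eq_zero, hmemI]
      refine ⟨⟨c, hc⟩, ?_⟩
      apply Subtype.ext
      simpa [Algebra.smul_def] using hac
  obtain ⟨n, cbar⟩ := Module.basisOfFiniteTypeTorsionFree' (R := S ⧸ I)
    (M := R ⧸ (I • ⊤ : Submodule S R))
  choose c hc using fun i => Submodule.Quotient.mk_surjective _ (cbar i)
  -- reduction of a linear combination
  have hred : ∀ t : Fin n → S,
      (Submodule.Quotient.mk (∑ i, t i • c i) : R ⧸ (I • ⊤ : Submodule S R))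
        = ∑ i, Ideal.Quotient.mk I (t i) • cbar i := by
    intro t
    have h0 : (Submodule.Quotient.mk (∑ i, t i • c i) : R ⧸ (I • ⊤ : Submodule S R))
        = (I • ⊤ : Submodule S R).mkQ (∑ i, t i • c i) := rfl
    rw [h0, map_sum]
    refine Finset.sum_congr rfl fun i _ => ?_
    rw [← hc i, Module.Quotient.mk_smul_mk]
    rfl
  let N : Submodule S R := Submodule.span S (Set.range c)
  have hsup : (⊤ : Submodule S R) ≤ N ⊔ I • (⊤ : Submodule S R) := by
    intro a _
    have h1 := cbar.sum_repr (Submodule.Quotient.mk a)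
    choose t ht using fun i =>
      Ideal.Quotient.mk_surjective (cbar.repr (Submodule.Quotient.mk a) i)
    have h2 : (Submodule.Quotient.mk (a - ∑ i, t i • c i) : R ⧸ (I • ⊤ : Submodule S R)) = 0 := by
      rw [Submodule.Quotient.mk_sub, hred, sub_eq_zero, ← h1]
      exact Finset.sum_congr rfl fun i _ => by rw [ht i]
    rw [Submodule.Quotient.mk_eq_zero] at h2
    have h3 : a = ∑ i, t i • c i + (a - ∑ i, t i • c i) := by abel
    rw [h3]
    exact Submodule.add_mem_sup (Submodule.sum_mem _ fun i _ =>
      Submodule.smul_mem _ _ (Submodule.subset_span ⟨i, rfl⟩)) h2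
  obtain ⟨s, hs1, hs2⟩ := Submodule.exists_sub_one_mem_and_smul_le_of_fg_of_le_sup (I := I)
    (N := N) (N' := ⊤) (P := ⊤) Module.Finite.fg_top le_rfl hsup
  have hs0 : s ≠ 0 := hne s hs1
  have hsE : algebraMap S E s ≠ 0 := fun h0 => hs0 (hinj (by rw [h0, map_zero]))
  -- every integral element times `s` is a combination
  have hcomb : ∀ y : E, IsIntegral S y →
      ∃ a : Fin n → S, algebraMap S E s * y = ∑ i, algebraMap S E (a i) * (c i : E) := by
    intro y hy
    have h1 : s • (⟨y, hy⟩ : R) ∈ N :=
      hs2 (Submodule.smul_mem_pointwise_smul _ s ⊤ trivial)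
    obtain ⟨a, ha⟩ := (Submodule.mem_span_range_iff_exists_fun S).1 h1
    refine ⟨a, ?_⟩
    have h2 := congrArg (Subtype.val) ha
    simpa [Algebra.smul_def] using h2.symm
  -- independence over `S`
  have hliS : LinearIndependent S c := by
    rw [Fintype.linearIndependent_iff]
    let Rel : Submodule S (Fin n → S) := LinearMap.ker (Fintype.linearCombination S c)
    have hRel : Rel ≤ I • Rel := by
      intro a ha
      have ha' : ∑ i, a i • c i = 0 := by
        simpa [Rel, Fintype.linearCombination_apply] using ha
      have h1 := hred a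
      rw [ha'] at h1
      have h2 := (Fintype.linearIndependent_iff.1 cbar.linearIndependent) _ h1.symm
      have h3 : ∀ i, π ∣ a i := fun i =>
        Ideal.mem_span_singleton.1 (Ideal.Quotient.eq_zero_iff_mem.1 (h2 i))
      choose a' ha2 using h3
      have h4 : a = π • a' := by
        funext i
        simpa using ha2 i
      have h5 : a' ∈ Rel := by
        have h6 : π • ∑ i, a' i • c i = 0 := by
          rw [← ha', Finset.smul_sum]
          exact Finset.sum_congr rfl fun i _ => by rw [ha2 i, mul_smul]
        have h7 : ∑ i, a' i • c i = 0 := by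
          have h8 := congrArg (Subtype.val) h6
          apply Subtype.ext
          have h9 : algebraMap S E π * ((∑ i, a' i • c i : R) : E) = 0 := by
            simpa [Algebra.smul_def] using h8
          simpa using (mul_eq_zero.1 h9).resolve_left hπE
        simpa [Rel, Fintype.linearCombination_apply] using h7
      rw [h4]
      exact Submodule.smul_mem_smul (Ideal.mem_span_singleton_self π) h5
    obtain ⟨r, hr1, hr2⟩ := Submodule.exists_sub_one_mem_and_smul_eq_zero_of_fg_of_le_smul I Rel
      (IsNoetherian.noetherian Rel) hRel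
    intro a ha i
    have h1 : a ∈ Rel := by
      simpa [Rel, Fintype.linearCombination_apply] using ha
    have h2 := congrFun (hr2 a h1) i
    simpa [hne r hr1] using h2
  have hliE : LinearIndependent S (fun i => (c i : E)) := by
    have := hliS.map' (R.val.toLinearMap) (LinearMap.ker_eq_bot.2 Subtype.val_injective)
    exact this
  have hliL : LinearIndependent L (fun i => (c i : E)) :=
    (LinearIndependent.iff_fractionRing S L).1 hliE
  have hspan : ⊤ ≤ Submodule.span L (Set.range fun i => (c i : E)) := by
    intro y _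
    have hy : IsAlgebraic S y :=
      (IsFractionRing.isAlgebraic_iff S L E).2 (Algebra.IsAlgebraic.isAlgebraic y)
    obtain ⟨d, hd0, hd⟩ := hy.exists_integral_multiple
    obtain ⟨a, ha⟩ := hcomb _ hd
    have hdE : algebraMap S E d ≠ 0 := fun h0 => hd0 (hinj (by rw [h0, map_zero]))
    have h1 : y = ∑ i, ((algebraMap S L (s * d))⁻¹ * algebraMap S L (a i)) • (c i : E) := by
      have h2 : algebraMap L E (algebraMap S L (s * d)) = algebraMap S E s * algebraMap S E d := by
        rw [← IsScalarTower.algebraMap_apply, map_mul]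
      have h3 : ∀ i, ((algebraMap S L (s * d))⁻¹ * algebraMap S L (a i)) • (c i : E)
          = (algebraMap S E s * algebraMap S E d)⁻¹ * (algebraMap S E (a i) * (c i : E)) := by
        intro i
        rw [Algebra.smul_def, map_mul, map_inv₀, h2, ← IsScalarTower.algebraMap_apply, mul_assoc]
      rw [Finset.sum_congr rfl fun i _ => h3 i, ← Finset.mul_sum, ← ha, Algebra.smul_def]
      field_simp
    rw [h1]
    exact Submodule.sum_mem _ fun i _ => Submodule.smul_mem _ _ (Submodule.subset_span ⟨i, rfl⟩)
  refine ⟨n, Module.Basis.mk hliL hspan, s, ?_, Ideal.mem_span_singleton.1 hs1, ?_⟩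
  · intro i
    rw [Module.Basis.mk_apply]
    exact (c i).2
  · intro y hy
    obtain ⟨a, ha⟩ := hcomb y hy
    refine ⟨a, ?_⟩
    rw [ha]
    exact Finset.sum_congr rfl fun i _ => by rw [Module.Basis.mk_apply]

end abstract

end Fermat.Agent.KLB
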