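import Fermat.Agent.KLB.Abs.Loc

/-!
# KL-B abstract part, node IDEM

Two distinct valuation subrings of `E` lying over the discrete valuation ring `Oπ` give a
nontrivial idempotent modulo `π` in the integral closure of `Oπ`.
-/

set_option maxHeartbeats 400000

namespace Fermat.Agent.KLB

/-! ## Dedekind domains and valuation subrings of the fraction field -/
section dedekind

variable {R E : Type*} [CommRing R] [IsDedekindDomain R] [Field E] [Algebra R E]
  [IsFractionRing R E]

omit [Field E] [Algebra R E] [IsFractionRing R E] in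
/-- The localisation of a Dedekind domain at a maximal ideal is a valuation ring,
in elementary form. -/
private theorem exists_not_mem_mul_eq (P : Ideal R) [hP : P.IsMaximal] {a b : R} (ha : a ≠ 0)
    (hb : b ≠ 0) : ∃ c a' : R, c ∉ P ∧ (c * a = b * a' ∨ c * b = a * a') := by
  classical
  have key : ∀ {a b : R} (_ : a ≠ 0) (_ : b ≠ 0) (m n : ℕ) (A B : Ideal R),
      P ⊔ B = ⊤ → Ideal.span {a} = P ^ m * A → Ideal.span {b} = P ^ n * B → n ≤ m →
      ∃ c a' : R, c ∉ P ∧ c * a = b * a' := by
    intro a b _ _ m n A B hB hAe hBe hnm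
    have hBP : ¬ B ≤ P := by
      intro h
      apply hP.ne_top
      rw [← hB]
      exact (sup_eq_left.mpr h).symm
    obtain ⟨c, hcB, hcP⟩ := SetLike.not_le_iff_exists.mp hBP
    have ha_mem : a ∈ P ^ n := by
      have h1 : a ∈ Ideal.span {a} := Ideal.mem_span_singleton_self a
      rw [hAe] at h1
      have h3 : P ^ m ≤ P ^ n := Ideal.pow_le_pow_right hnm
      have h4 : P ^ m * A ≤ P ^ m := Ideal.mul_le_left
      exact h3 (h4 h1)
    have h2 : a * c ∈ Ideal.span {b} := by
      rw [hBe]
      exact Ideal.mul_mem_mul ha_mem hcB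
    obtain ⟨a', ha'⟩ := Ideal.mem_span_singleton.mp h2
    exact ⟨c, a', hcP, by rw [mul_comm, ha']⟩
  obtain ⟨A, hA, hAe⟩ := Ideal.eq_prime_pow_mul_coprime
    (I := Ideal.span {a}) (by simpa using ha) P
  obtain ⟨B, hB, hBe⟩ := Ideal.eq_prime_pow_mul_coprime
    (I := Ideal.span {b}) (by simpa using hb) P
  rcases le_total (Multiset.count P (UniqueFactorizationMonoid.normalizedFactors (Ideal.span {b})))
    (Multiset.count P (UniqueFactorizationMonoid.normalizedFactors (Ideal.span {a}))) with h | h
  · obtain ⟨c, a', hc, h1⟩ := key ha hb _ _ A B hB hAe hBe h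
    exact ⟨c, a', hc, Or.inl h1⟩
  · obtain ⟨c, a', hc, h1⟩ := key hb ha _ _ B A hA hBe hAe h
    exact ⟨c, a', hc, Or.inr h1⟩

omit [IsDedekindDomain R] [IsFractionRing R E] in
/-- The centre on `R` of a valuation subring containing `R`. -/
private def centre (V : ValuationSubring E) (hV : ∀ r : R, algebraMap R E r ∈ V) : Ideal R where
  carrier := {r | V.valuation (algebraMap R E r) < 1}
  add_mem' := by
    intro a b ha hb
    simp only [Set.mem_ofPred_eq, map_add] at *
    exact lt_of_le_of_lt (V.valuation.map_add _ _) (max_lt ha hb)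
  zero_mem' := by simp
  smul_mem' := by
    intro c x hx
    simp only [Set.mem_ofPred_eq, smul_eq_mul, map_mul] at *
    rw [mul_comm]
    exact mul_lt_one_of_lt_of_le hx ((V.valuation_le_one_iff _).mpr (hV c))

omit [IsDedekindDomain R] [IsFractionRing R E] in
private theorem mem_centre {V : ValuationSubring E} {hV : ∀ r : R, algebraMap R E r ∈ V} {r : R} :
    r ∈ centre V hV ↔ V.valuation (algebraMap R E r) < 1 := Iff.rfl

omit [IsDedekindDomain R] [IsFractionRing R E] in
private theorem val_eq_one_of_not_mem {V : ValuationSubring E}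
    {hV : ∀ r : R, algebraMap R E r ∈ V} {r : R} (hr : r ∉ centre V hV) :
    V.valuation (algebraMap R E r) = 1 :=
  le_antisymm ((V.valuation_le_one_iff _).mpr (hV r)) (not_lt.mp hr)

omit [IsDedekindDomain R] [IsFractionRing R E] in
private theorem centre_isPrime (V : ValuationSubring E) (hV : ∀ r : R, algebraMap R E r ∈ V) :
    (centre V hV).IsPrime := by
  refine ⟨?_, ?_⟩
  · intro h
    have : (1 : R) ∈ centre V hV := h ▸ Submodule.mem_top
    rw [mem_centre] at this
    simp at this
  · intro a b hab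
    by_contra hcon
    push Not at hcon
    rw [mem_centre, map_mul, map_mul, val_eq_one_of_not_mem hcon.1,
      val_eq_one_of_not_mem hcon.2] at hab
    simp at hab

/-- A valuation subring containing the Dedekind domain `R` is determined by its (nonzero) centre:
one inclusion. -/
private theorem le_of_centre_eq (V W : ValuationSubring E) (hV : ∀ r : R, algebraMap R E r ∈ V)
    (hW : ∀ r : R, algebraMap R E r ∈ W) [hP : (centre V hV).IsMaximal]
    (h : centre V hV = centre W hW) : V ≤ W := by
  intro x hx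
  rcases eq_or_ne x 0 with rfl | hx0
  · exact W.zero_mem
  obtain ⟨a, b, hb, rfl⟩ := IsFractionRing.div_surjective (A := R) x
  have hb0 : b ≠ 0 := nonZeroDivisors.ne_zero hb
  have hbE : algebraMap R E b ≠ 0 := by
    simpa using hb0
  have ha0 : a ≠ 0 := by
    rintro rfl
    simp at hx0
  have haE : algebraMap R E a ≠ 0 := by
    simpa using ha0
  obtain ⟨c, a', hc, h1 | h1⟩ := exists_not_mem_mul_eq (centre V hV) ha0 hb0
  · -- `a / b = a' / c`
    have hcW : W.valuation (algebraMap R E c) = 1 := val_eq_one_of_not_mem (h ▸ hc)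
    have hcE : algebraMap R E c ≠ 0 := by
      intro h0
      rw [h0] at hcW
      simp at hcW
    have h2 : algebraMap R E a / algebraMap R E b = algebraMap R E a' / algebraMap R E c := by
      rw [div_eq_div_iff hbE hcE, ← map_mul, ← map_mul, mul_comm a c, h1, mul_comm]
    rw [h2, ← ValuationSubring.valuation_le_one_iff, map_div₀, hcW, div_one]
    exact (W.valuation_le_one_iff _).mpr (hW a')
  · -- `b / a = a' / c`
    have hcV : V.valuation (algebraMap R E c) = 1 := val_eq_one_of_not_mem hc
    have hcE : algebraMap R E c ≠ 0 := by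
      intro h0
      rw [h0] at hcV
      simp at hcV
    have ha'0 : algebraMap R E a' ≠ 0 := by
      intro h0
      have : algebraMap R E (c * b) = 0 := by rw [h1, map_mul, h0, mul_zero]
      rw [map_mul] at this
      exact (mul_ne_zero hcE hbE) this
    have h2 : algebraMap R E a / algebraMap R E b = algebraMap R E c / algebraMap R E a' := by
      rw [div_eq_div_iff hbE ha'0, ← map_mul, ← map_mul, ← h1]
    by_cases ha' : a' ∈ centre V hV
    · exfalso
      rw [h2, ← ValuationSubring.valuation_le_one_iff, map_div₀, hcV] at hx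
      rw [mem_centre] at ha'
      have h3 : V.valuation (algebraMap R E a') ≠ 0 := by
        simpa using ha'0
      rw [div_le_iff₀ (zero_lt_iff.mpr h3), one_mul] at hx
      exact absurd ha' (not_lt.mpr hx)
    · have ha'W : W.valuation (algebraMap R E a') = 1 := val_eq_one_of_not_mem (h ▸ ha')
      rw [h2, ← ValuationSubring.valuation_le_one_iff, map_div₀, ha'W, div_one]
      exact (W.valuation_le_one_iff _).mpr (hW c)

/-- The abstract Dedekind statement. -/
private theorem exists_eps (V W : ValuationSubring E) (hV : ∀ r : R, algebraMap R E r ∈ V)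
    (hW : ∀ r : R, algebraMap R E r ∈ W) (ϖ : R) (hϖ0 : ϖ ≠ 0)
    (hϖV : V.valuation (algebraMap R E ϖ) < 1) (hϖW : W.valuation (algebraMap R E ϖ) < 1)
    (hVW : V ≠ W) :
    ∃ ε r : R, ε ^ 2 - ε = ϖ * r ∧ V.valuation (algebraMap R E ε) < 1 ∧
      W.valuation (1 - algebraMap R E ε) < 1 := by
  classical
  have hPV : (centre V hV).IsPrime := centre_isPrime V hV
  have hPW : (centre W hW).IsPrime := centre_isPrime W hW
  have hV0 : centre V hV ≠ ⊥ := by
    intro h
    have : ϖ ∈ centre V hV := hϖV
    rw [h, Ideal.mem_bot] at this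
    exact hϖ0 this
  have hW0 : centre W hW ≠ ⊥ := by
    intro h
    have : ϖ ∈ centre W hW := hϖW
    rw [h, Ideal.mem_bot] at this
    exact hϖ0 this
  have hMV : (centre V hV).IsMaximal := hPV.isMaximal hV0
  have hMW : (centre W hW).IsMaximal := hPW.isMaximal hW0
  have hne : centre V hV ≠ centre W hW := by
    intro h
    exact hVW (le_antisymm (le_of_centre_eq V W hV hW h) (le_of_centre_eq W V hW hV h.symm))
  obtain ⟨Q, hQ, hQe⟩ := Ideal.eq_prime_pow_mul_coprime
    (I := Ideal.span {ϖ}) (by simpa using hϖ0) (centre V hV)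
  set n := Multiset.count (centre V hV)
    (UniqueFactorizationMonoid.normalizedFactors (Ideal.span {ϖ})) with hn
  have hn0 : n ≠ 0 := by
    intro h0
    rw [h0, pow_zero, one_mul] at hQe
    apply hMV.ne_top
    rw [← hQ, ← hQe]
    refine (sup_eq_left.mpr ?_).symm
    rw [Ideal.span_le, Set.singleton_subset_iff]
    exact hϖV
  have hQW : Q ≤ centre W hW := by
    have h1 : centre V hV ^ n * Q ≤ centre W hW := by
      rw [← hQe, Ideal.span_le, Set.singleton_subset_iff]
      exact hϖW
    rcases (Ideal.IsPrime.mul_le hPW).mp h1 with h2 | h2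
    · exfalso
      have h3 : centre V hV ≤ centre W hW := hPW.le_of_pow_le h2
      exact hne (hMV.eq_of_le hMW.ne_top h3)
    · exact h2
  have htop : centre V hV ^ n ⊔ Q = ⊤ := Ideal.pow_sup_eq_top hQ
  obtain ⟨ε, hε, δ, hδ, hsum⟩ := Submodule.mem_sup.mp (htop ▸ (Submodule.mem_top : (1 : R) ∈ ⊤))
  have hprod : ε * δ ∈ Ideal.span {ϖ} := by
    rw [hQe]
    exact Ideal.mul_mem_mul hε hδ
  obtain ⟨r, hr⟩ := Ideal.mem_span_singleton.mp hprod
  have hδ' : δ = 1 - ε := by rw [← hsum]; ring
  refine ⟨ε, -r, ?_, ?_, ?_⟩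
  · have : ε ^ 2 - ε = -(ε * δ) := by rw [hδ']; ring
    rw [this, hr]; ring
  · exact Ideal.pow_le_self hn0 hε
  · have h1 : δ ∈ centre W hW := hQW hδ
    rw [mem_centre, hδ', map_sub, map_one] at h1
    exact h1

end dedekind

section abstract

variable {S L E : Type*} [CommRing S] [IsDomain S] [IsIntegrallyClosed S] [Field L] [Field E]
  [Algebra S L] [IsFractionRing S L] [Algebra L E] [Algebra S E] [IsScalarTower S L E]
  {π : S} (hπ : Prime π) {Oπ : Subring L} (hOπ : IsLocSub (ndvd hπ) Oπ)

include hOπ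

omit [IsIntegrallyClosed S] [IsDomain S] in
private theorem inv_pi_not_mem : (algebraMap S L π)⁻¹ ∉ Oπ := by
  intro h
  obtain ⟨d, hd, s, hs⟩ := (hOπ _).mp h
  have hπ0 : algebraMap S L π ≠ 0 := by
    simpa using hπ.ne_zero
  have h1 : algebraMap S L d = algebraMap S L (s * π) := by
    rw [map_mul, ← hs]
    field_simp
  have h2 : d = s * π := IsFractionRing.injective S L h1
  exact hd ⟨s, by rw [h2, mul_comm]⟩

omit [IsIntegrallyClosed S] in
private theorem isFractionRing_Oπ : IsFractionRing Oπ L := by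
  refine IsFractionRing.of_field _ _ fun z => ?_
  obtain ⟨a, b, _, rfl⟩ := IsFractionRing.div_surjective (A := S) z
  exact ⟨⟨algebraMap S L a, hOπ.algebraMap_mem a⟩, ⟨algebraMap S L b, hOπ.algebraMap_mem b⟩, rfl⟩

omit [IsIntegrallyClosed S] in
private theorem isDVR_Oπ [IsNoetherianRing S] : IsDiscreteValuationRing Oπ := by
  set p : Oπ := ⟨algebraMap S L π, hOπ.algebraMap_mem π⟩ with hp
  have hπ0 : algebraMap S L π ≠ 0 := by
    simpa using hπ.ne_zero
  have hp0 : p ≠ 0 := by
    intro h
    exact hπ0 (congrArg Subtype.val h)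
  have hpu : ¬ IsUnit p := by
    rintro ⟨u, hu⟩
    apply inv_pi_not_mem hπ hOπ
    have h1 : (p : L) * ((u⁻¹ : Oπˣ) : Oπ) = 1 := by
      rw [← hu]
      exact_mod_cast congrArg Subtype.val u.mul_inv
    have h2 : (algebraMap S L π)⁻¹ = (((u⁻¹ : Oπˣ) : Oπ) : L) := by
      rw [inv_eq_iff_eq_inv]
      exact eq_inv_of_mul_eq_one_left h1
    rw [h2]
    exact Subtype.mem _
  have fact : ∀ {x : Oπ}, x ≠ 0 → ∃ n : ℕ, Associated (p ^ n) x := by
    intro x hx
    have hxL : (x : L) ≠ 0 := fun h => hx (Subtype.ext h)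
    obtain ⟨d, hd, s, hs⟩ := (hOπ _).mp x.2
    have hd0 : d ≠ 0 := by
      rintro rfl
      exact hd (dvd_zero _)
    have hdL : algebraMap S L d ≠ 0 := by
      simpa using hd0
    have hs0 : s ≠ 0 := by
      rintro rfl
      rw [map_zero] at hs
      exact (mul_ne_zero hdL hxL) hs
    obtain ⟨n, s', hs', rfl⟩ := WfDvdMonoid.max_power_factor hs0 hπ.irreducible
    have hs'0 : s' ≠ 0 := by
      rintro rfl
      exact hs' (dvd_zero _)
    have hs'L : algebraMap S L s' ≠ 0 := by
      simpa using hs'0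
    have hu1 : algebraMap S L s' / algebraMap S L d ∈ Oπ :=
      (hOπ _).mpr ⟨d, hd, s', by field_simp⟩
    have hu2 : algebraMap S L d / algebraMap S L s' ∈ Oπ :=
      (hOπ _).mpr ⟨s', hs', d, by field_simp⟩
    refine ⟨n, ⟨⟨⟨_, hu1⟩, ⟨_, hu2⟩, ?_, ?_⟩, ?_⟩⟩
    · apply Subtype.ext
      simp only [Subring.coe_mul, Subring.coe_one]
      field_simp
    · apply Subtype.ext
      simp only [Subring.coe_mul, Subring.coe_one]
      field_simp
    · apply Subtype.ext
      simp only [Subring.coe_mul, Subring.coe_pow, hp]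
      rw [map_mul, map_pow] at hs
      field_simp
      rw [← hs]
  refine IsDiscreteValuationRing.ofHasUnitMulPowIrreducibleFactorization ⟨p, ?_, fact⟩
  rw [irreducible_iff]
  refine ⟨hpu, ?_⟩
  intro a b hab
  have ha0 : a ≠ 0 := by
    rintro rfl
    rw [zero_mul] at hab
    exact hp0 hab
  have hb0 : b ≠ 0 := by
    rintro rfl
    rw [mul_zero] at hab
    exact hp0 hab
  obtain ⟨i, u, hu⟩ := fact ha0
  obtain ⟨j, w, hw⟩ := fact hb0
  rcases Nat.eq_zero_or_pos i with rfl | hi
  · left
    rw [← hu, pow_zero, one_mul]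
    exact u.isUnit
  rcases Nat.eq_zero_or_pos j with rfl | hj
  · right
    rw [← hw, pow_zero, one_mul]
    exact w.isUnit
  exfalso
  apply hpu
  obtain ⟨i', rfl⟩ : ∃ i', i = i' + 1 := ⟨i - 1, by omega⟩
  obtain ⟨j', rfl⟩ : ∃ j', j = j' + 1 := ⟨j - 1, by omega⟩
  have h1 : p * 1 = p * (p * (p ^ i' * p ^ j' * u * w)) := by
    rw [mul_one]
    conv_lhs => rw [hab, ← hu, ← hw]
    ring
  have h2 := mul_left_cancel₀ hp0 h1
  exact IsUnit.of_mul_eq_one _ h2.symm

variable [FiniteDimensional L E] [Algebra.IsSeparable L E] [IsNoetherianRing S]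

omit [IsDomain S] [IsIntegrallyClosed S] [IsFractionRing S L] [IsScalarTower S L E]
  [FiniteDimensional L E] [Algebra.IsSeparable L E] [IsNoetherianRing S] hOπ in
private theorem mem_of_isIntegral_Oπ (U : ValuationSubring E)
    (hU : U.toSubring.comap (algebraMap L E) = Oπ) {y : E} (hy : IsIntegral Oπ y) : y ∈ U := by
  obtain ⟨q, hq, hq0⟩ := hy
  have : IsIntegral U y := by
    have hmem : ∀ a : Oπ, algebraMap Oπ E a ∈ U := fun a => by
      have : (a : L) ∈ U.toSubring.comap (algebraMap L E) := hU ▸ a.2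
      exact this
    let f : Oπ →+* U := (algebraMap Oπ E).codRestrict U.toSubring hmem
    refine ⟨q.map f, hq.map f, ?_⟩
    rw [Polynomial.eval₂_map]
    exact hq0
  obtain ⟨u, rfl⟩ := (IsIntegrallyClosed.isIntegral_iff (R := U) (K := E)).mp this
  exact u.2

omit [IsIntegrallyClosed S] [FiniteDimensional L E] [Algebra.IsSeparable L E]
  [IsNoetherianRing S] in
private theorem val_pi_lt_one (U : ValuationSubring E)
    (hU : U.toSubring.comap (algebraMap L E) = Oπ) : U.valuation (algebraMap S E π) < 1 := by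
  have h1 : algebraMap S E π ∈ U := by
    have : algebraMap S L π ∈ U.toSubring.comap (algebraMap L E) := hU ▸ hOπ.algebraMap_mem π
    rw [IsScalarTower.algebraMap_apply S L E]
    exact this
  refine lt_of_le_of_ne ((U.valuation_le_one_iff _).mpr h1) ?_
  intro h2
  apply inv_pi_not_mem hπ hOπ
  rw [← hU]
  show algebraMap L E (algebraMap S L π)⁻¹ ∈ U
  rw [map_inv₀, ← IsScalarTower.algebraMap_apply S L E, ← ValuationSubring.valuation_le_one_iff,
    map_inv₀, h2, inv_one]

/-! ## IDEM : two distinct extensions of the valuation give a nontrivial idempotent -/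
theorem exists_idemMod (V W : ValuationSubring E)
    (hV : V.toSubring.comap (algebraMap L E) = Oπ) (hW : W.toSubring.comap (algebraMap L E) = Oπ)
    (hVW : V ≠ W) :
    ∃ ε : E, IdemMod S Oπ π ε ∧ V.valuation ε < 1 ∧ W.valuation (1 - ε) < 1 := by
  have : IsFractionRing Oπ L := isFractionRing_Oπ hπ hOπ
  have : IsDiscreteValuationRing Oπ := isDVR_Oπ hπ hOπ
  have : IsDedekindDomain (integralClosure Oπ E) := integralClosure.isDedekindDomain Oπ L E
  have : IsFractionRing (integralClosure Oπ E) E :=
    integralClosure.isFractionRing_of_finite_extension L E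
  have hπint : IsIntegral Oπ (algebraMap S E π) := hOπ.isIntegral_of isIntegral_algebraMap
  have hπE : algebraMap S E π ≠ 0 := by
    rw [IsScalarTower.algebraMap_apply S L E]
    simpa using hπ.ne_zero
  obtain ⟨ε, r, h1, h2, h3⟩ := exists_eps (R := integralClosure Oπ E) V W
    (fun r => (mem_of_isIntegral_Oπ V hV (y := (r : E)) r.2 : (r : E) ∈ V))
    (fun r => (mem_of_isIntegral_Oπ W hW (y := (r : E)) r.2 : (r : E) ∈ W))
    ⟨algebraMap S E π, hπint⟩ (fun h => hπE (congrArg Subtype.val h))
    (val_pi_lt_one hπ hOπ V hV) (val_pi_lt_one hπ hOπ W hW) hVW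
  refine ⟨ε, ⟨ε.2, r, r.2, ?_⟩, h2, h3⟩
  have h4 := congrArg (algebraMap (integralClosure Oπ E) E) h1
  rw [map_sub, map_pow, map_mul] at h4
  exact h4

end abstract

end Fermat.Agent.KLB
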