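import Fermat.Agent.KLB.Abs.Loc

/-!
# KL-B abstract part, node IDEAL

The set of `a : S` with `a ε ∈ R + π R_π` is an ideal of `S` containing `π`.
-/

namespace Fermat.Agent.KLB

section abstract

variable {S L E : Type*} [CommRing S] [IsDomain S] [IsIntegrallyClosed S] [Field L] [Field E]
  [Algebra S L] [IsFractionRing S L] [Algebra L E] [Algebra S E] [IsScalarTower S L E]
  {π : S} (hπ : Prime π) {Oπ : Subring L} (hOπ : IsLocSub (ndvd hπ) Oπ)

include hOπ

/-! ## IDEAL -/
omit [IsIntegrallyClosed S] in
theorem nearInt_of_span_eq_top {ε : E} (hε : IsIntegral Oπ ε) (s : Set S)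
    (hs : ∀ a ∈ s, NearInt S Oπ π (algebraMap S E a * ε))
    (htop : Ideal.span (insert π s) = ⊤) : NearInt S Oπ π ε := by
  let I : Ideal S :=
    { carrier := {a | NearInt S Oπ π (algebraMap S E a * ε)}
      add_mem' := by
        rintro a b ⟨e, r, he, hr, h⟩ ⟨e', r', he', hr', h'⟩
        refine ⟨e + e', r + r', he.add he', hr.add hr', ?_⟩
        rw [map_add, add_mul, h, h']
        ring
      zero_mem' := ⟨0, 0, isIntegral_zero, isIntegral_zero, by simp⟩
      smul_mem' := by
        rintro c a ⟨e, r, he, hr, h⟩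
        refine ⟨algebraMap S E c * e, algebraMap S E c * r, isIntegral_algebraMap.mul he,
          (hOπ.isIntegral_of isIntegral_algebraMap).mul hr, ?_⟩
        rw [smul_eq_mul, map_mul, mul_assoc, h]
        ring }
  have hle : Ideal.span (insert π s) ≤ I := by
    rw [Ideal.span_le]
    intro a ha
    rcases ha with rfl | ha
    · exact ⟨0, ε, isIntegral_zero, hε, by simp⟩
    · exact hs a ha
  have h1 : (1 : S) ∈ I := hle (htop ▸ Submodule.mem_top)
  have h2 : NearInt S Oπ π (algebraMap S E 1 * ε) := h1
  rwa [map_one, one_mul] at h2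

end abstract

end Fermat.Agent.KLB
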