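import Fermat.Agent.KLB.Abs.PropP
import Fermat.Agent.KLB.Abs.NearIdeal
import Fermat.Agent.KLB.Abs.Idem
import Fermat.Agent.KLB.Abs.Descent
import Fermat.Agent.KLB.Abs.Cech

/-!
# KL-B abstract part: assembly of Theorem G from the nodes
-/

namespace Fermat.Agent.KLB

section cover

variable {S S' L L' E E' : Type*} [CommRing S] [CommRing S'] [IsDomain S'] [IsIntegrallyClosed S']
  [IsNoetherianRing S'] [Field L] [Field L'] [Field E]
  [Field E'] [Algebra S L] [Algebra L E] [Algebra S E] [Algebra S' L'] [IsFractionRing S' L']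
  [Algebra L' E'] [Algebra S' E'] [IsScalarTower S' L' E'] [Algebra E E'] [Algebra L E']
  [Algebra S E'] [IsScalarTower L E E'] [IsScalarTower S E E'] [FiniteDimensional E E']
  [FiniteDimensional L' E'] [Algebra.IsSeparable L' E']

/-- One cover `E'/L'` of `E/L`, unramified over `S'[1/κ']`, of degree invertible in `S`:
idempotents of the special fibre of `E` are regular outside `κ = 0`. -/
theorem nearInt_of_cover (Oπ : Subring L) {Oπ' Oκ' Oπκ' : Subring L'} (π κ : S) {π' κ' : S'}
    (hπ' : Prime π') [IsPrincipalIdealRing (S' ⧸ Ideal.span {π'})]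
    (hππ' : algebraMap S' E' π' = algebraMap S E' π)
    (hκκ' : algebraMap S' E' κ' = algebraMap S E' κ)
    (hκ' : ¬ π' ∣ κ')
    (hOπ' : IsLocSub (ndvd hπ') Oπ') (hOκ' : IsLocSub (Submonoid.powers κ') Oκ')
    (hOπκ' : IsLocSub (Submonoid.powers (π' * κ')) Oπκ')
    (hv : Unr Oπ' L' E') (hh : Unr Oπκ' L' E')
    (h₁ : ∀ y : E', IsIntegral S' y → IsIntegral S y)
    (h₂ : ∀ y : E', IsIntegral Oπ' y ↔ IsIntegral Oπ y)
    (w : S) (hw : algebraMap S E w * (Module.finrank E E' : E) = 1)
    (hwO : IsIntegral Oπ (algebraMap S E w))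
    {ε : E} (hε : IdemMod S Oπ π ε) :
    ∃ k : ℕ, NearInt S Oπ π (algebraMap S E (κ ^ k) * ε) := by
  have hκ0 : κ' ≠ 0 := fun h => hκ' (h ▸ dvd_zero _)
  have hu : Unr Oκ' L' E' := purity hπ' hOπ' hκ' hOκ' hOπκ' hv hh
  have hε' : IdemMod S' Oπ' π' (algebraMap E E' ε) := by
    obtain ⟨h1, r, hr, hr'⟩ := hε
    refine ⟨(h₂ _).mpr h1.algebraMap, algebraMap E E' r, (h₂ _).mpr hr.algebraMap, ?_⟩
    rw [hππ', IsScalarTower.algebraMap_apply S E E', ← map_mul, ← hr']
    simp
  obtain ⟨k, hk⟩ := propP hπ' hOπ' hκ0 hOκ' hv hu hε'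
  refine ⟨k, descent Oπ Oπ' π π' hππ' h₁ (fun y hy => (h₂ y).mp hy) w hw hwO ?_⟩
  rwa [map_mul, ← IsScalarTower.algebraMap_apply S E E', map_pow, ← hκκ', ← map_pow]

end cover

section final

variable {A L E : Type*} [CommRing A] [IsDomain A] [IsDiscreteValuationRing A] [Field L] [Field E]
  [Algebra A L] [Algebra L E] [Algebra A E] [IsScalarTower A L E] [FiniteDimensional L E]
  [Algebra.IsSeparable L E] {x : L} (hx : IsCoord A x) {π : A} (hπ : Irreducible π)

include hx hπ

/-- **Theorem G** (abstract form).  If the idempotents of the special fibre are regular in both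
charts, the Gauss valuation has a unique extension to `E`. -/
theorem gauss_unique (hconst : ∀ y : E, IsIntegral A y → y ∈ (algebraMap A E).range)
    {Og : Subring L} (hOg : IsLocSub (ndvd (hx.prime hπ)) Og)
    (hc₁ : ∀ ε : E, IdemMod (Algebra.adjoin A {x}) Og (algebraMap A _ π) ε →
      NearInt (Algebra.adjoin A {x}) Og (algebraMap A _ π) ε)
    (hc₂ : ∀ ε : E, IdemMod (Algebra.adjoin A {x⁻¹}) Og (algebraMap A _ π) ε →
      NearInt (Algebra.adjoin A {x⁻¹}) Og (algebraMap A _ π) ε)
    (V W : ValuationSubring E)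
    (hV : V.toSubring.comap (algebraMap L E) = Og) (hW : W.toSubring.comap (algebraMap L E) = Og) :
    V = W := by
  by_contra hVW
  have := hx.frac
  have := hx.isIntegrallyClosed
  have := hx.isNoetherianRing
  have := hx.inv.frac
  have := hx.inv.isIntegrallyClosed
  have := hx.frac₂
  have := hx.isIntegrallyClosed₂
  have hOg' := hx.isLocSub_inv hπ hOg
  have hOg₂ := hx.isLocSub₂ hπ hOg
  obtain ⟨ε, hε, hεV, hεW⟩ := exists_idemMod (hx.prime hπ) hOg V W hV hW hVW
  obtain ⟨e₁, r₁, he₁, hr₁, h1⟩ := hc₁ ε hε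
  obtain ⟨e₂, r₂, he₂, hr₂, h2⟩ := hc₂ ε hε
  obtain ⟨hεi, r₀, hr₀, h0⟩ := hε
  have a1 : algebraMap (Algebra.adjoin A {x}) E (algebraMap A _ π) = algebraMap A E π :=
    (IsScalarTower.algebraMap_apply A (Algebra.adjoin A {x}) E π).symm
  have a2 : algebraMap (Algebra.adjoin A {x⁻¹}) E (algebraMap A _ π) = algebraMap A E π :=
    (IsScalarTower.algebraMap_apply A (Algebra.adjoin A {x⁻¹}) E π).symm
  have a3 : algebraMap (Algebra.adjoin A {x, x⁻¹}) E (algebraMap A _ π) = algebraMap A E π :=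
    (IsScalarTower.algebraMap_apply A (Algebra.adjoin A {x, x⁻¹}) E π).symm
  rw [a1] at h1 h0
  rw [a2] at h2
  set p : E := algebraMap A E π with hp
  -- integrality over the Gauss ring of the elements integral over the charts
  have he₁g : IsIntegral Og e₁ := hOg.isIntegral_of he₁
  have he₂g : IsIntegral Og e₂ := hOg'.isIntegral_of he₂
  -- the three congruences
  have c1 : ∃ r : E, IsIntegral (Algebra.adjoin A {x}) r ∧ e₁ ^ 2 - e₁ = p * r := by
    refine ⟨r₀ - (ε * r₁ + ε * r₁) + p * r₁ ^ 2 + r₁, sat (hx.prime hπ) hOg ?_ ?_, ?_⟩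
    · exact (((hr₀.sub ((hεi.mul hr₁).add (hεi.mul hr₁))).add
        ((hOg.isIntegral_of (isIntegral_algebraMap (R := Algebra.adjoin A {x})
          (x := algebraMap A _ π))).mul (hr₁.pow 2) |> fun h => by rwa [a1] at h)).add hr₁)
    · rw [a1]
      have : p * (r₀ - (ε * r₁ + ε * r₁) + p * r₁ ^ 2 + r₁) = e₁ ^ 2 - e₁ := by
        have : e₁ = ε - p * r₁ := by rw [h1]; ring
        rw [this]; linear_combination (-1 : E) * h0
      rw [this]
      exact (he₁.pow 2).sub he₁
    · have : e₁ = ε - p * r₁ := by rw [h1]; ring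
      rw [this]; linear_combination h0
  have c2 : ∃ r : E, IsIntegral (Algebra.adjoin A {x⁻¹}) r ∧ e₂ ^ 2 - e₂ = p * r := by
    refine ⟨r₀ - (ε * r₂ + ε * r₂) + p * r₂ ^ 2 + r₂, sat (hx.inv.prime hπ) hOg' ?_ ?_, ?_⟩
    · exact (((hr₀.sub ((hεi.mul hr₂).add (hεi.mul hr₂))).add
        ((hOg.isIntegral_of (isIntegral_algebraMap (R := Algebra.adjoin A {x})
          (x := algebraMap A _ π))).mul (hr₂.pow 2) |> fun h => by rwa [a1] at h)).add hr₂)
    · rw [a2]
      have : p * (r₀ - (ε * r₂ + ε * r₂) + p * r₂ ^ 2 + r₂) = e₂ ^ 2 - e₂ := by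
        have : e₂ = ε - p * r₂ := by rw [h2]; ring
        rw [this]; linear_combination (-1 : E) * h0
      rw [this]
      exact (he₂.pow 2).sub he₂
    · have : e₂ = ε - p * r₂ := by rw [h2]; ring
      rw [this]; linear_combination h0
  have mono₁ : ∀ y : E, IsIntegral (Algebra.adjoin A {x}) y →
      IsIntegral (Algebra.adjoin A {x, x⁻¹}) y := fun y hy =>
    hx.isLocSub_powers.isIntegral_of hy
  have mono₂ : ∀ y : E, IsIntegral (Algebra.adjoin A {x⁻¹}) y →
      IsIntegral (Algebra.adjoin A {x, x⁻¹}) y := fun y hy => by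
    have := hx.inv.isLocSub_powers.isIntegral_of hy
    rw [inv_inv, Set.pair_comm] at this
    exact this
  have c12 : ∃ r : E, IsIntegral (Algebra.adjoin A {x, x⁻¹}) r ∧ e₁ - e₂ = p * r := by
    refine ⟨r₂ - r₁, sat (hx.prime₂ hπ) hOg₂ (hr₂.sub hr₁) ?_, ?_⟩
    · rw [a3]
      have : p * (r₂ - r₁) = e₁ - e₂ := by
        have e1 : e₁ = ε - p * r₁ := by rw [h1]; ring
        have e2 : e₂ = ε - p * r₂ := by rw [h2]; ring
        rw [e1, e2]; ring
      rw [this]
      exact (mono₁ _ he₁).sub (mono₂ _ he₂)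
    · have e1 : e₁ = ε - p * r₁ := by rw [h1]; ring
      have e2 : e₂ = ε - p * r₂ := by rw [h2]; ring
      rw [e1, e2]; ring
  -- valuations
  have memV : ∀ (U : ValuationSubring E), U.toSubring.comap (algebraMap L E) = Og →
      ∀ y : E, IsIntegral Og y → U.valuation y ≤ 1 := by
    intro U hU y hy
    rw [ValuationSubring.valuation_le_one_iff]
    obtain ⟨q, hq, hq0⟩ := hy
    have : IsIntegral U y := by
      have hmem : ∀ a : Og, algebraMap Og E a ∈ U := fun a => by
        have : (a : L) ∈ U.toSubring.comap (algebraMap L E) := hU ▸ a.2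
        exact this
      let f : Og →+* U := (algebraMap Og E).codRestrict U.toSubring hmem
      refine ⟨q.map f, hq.map f, ?_⟩
      rw [Polynomial.eval₂_map]
      exact hq0
    have := (IsIntegrallyClosed.isIntegral_iff (R := U) (K := E)).mp this
    obtain ⟨u, rfl⟩ := this
    exact u.2
  have pV : ∀ (U : ValuationSubring E), U.toSubring.comap (algebraMap L E) = Og →
      U.valuation p < 1 := by
    intro U hU
    have hp0 : algebraMap A L π ≠ 0 := by
      intro h
      have h' : algebraMap (Algebra.adjoin A {x}) L (algebraMap A _ π) = 0 := by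
        rw [← IsScalarTower.algebraMap_apply]; exact h
      exact (hx.prime hπ).ne_zero ((map_eq_zero_iff _ (IsFractionRing.injective _ L)).mp h')
    have hninv : (algebraMap A L π)⁻¹ ∉ Og := by
      intro h
      obtain ⟨d, hd, s, hs⟩ := (hOg _).mp h
      apply hd
      refine ⟨s, ?_⟩
      apply IsFractionRing.injective (Algebra.adjoin A {x}) L
      rw [map_mul, ← hs, ← IsScalarTower.algebraMap_apply A (Algebra.adjoin A {x}) L]
      field_simp
    rw [← hU] at hninv
    have h3 : (p)⁻¹ ∉ U := by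
      intro h
      apply hninv
      show algebraMap L E (algebraMap A L π)⁻¹ ∈ U
      rw [map_inv₀, ← IsScalarTower.algebraMap_apply]
      exact h
    by_contra hlt
    apply h3
    rw [← ValuationSubring.valuation_le_one_iff, map_inv₀]
    exact inv_le_one_of_one_le₀ (not_lt.mp hlt)
  rcases cech hx hπ hconst he₁ he₂ c1 c2 c12 with ⟨r, hr, h⟩ | ⟨r, hr, h⟩
  · -- ε ∈ π R_π, contradiction at W
    have hε' : W.valuation ε < 1 := by
      rw [h1, h, ← mul_add, map_mul]
      exact mul_lt_one_of_lt_of_le (pV W hW) (memV W hW _ ((hOg.isIntegral_of hr).add hr₁))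
    have : W.valuation 1 < 1 := by
      have h4 : (1 : E) = ε + (1 - ε) := by ring
      rw [h4]
      exact lt_of_le_of_lt (W.valuation.map_add _ _) (max_lt hε' hεW)
    simp at this
  · have hε' : V.valuation (1 - ε) < 1 := by
      have : 1 - ε = p * (r - r₁) := by rw [h1, mul_sub, ← h]; ring
      rw [this, map_mul]
      exact mul_lt_one_of_lt_of_le (pV V hV) (memV V hV _ ((hOg.isIntegral_of hr).sub hr₁))
    have : V.valuation 1 < 1 := by
      have h4 : (1 : E) = ε + (1 - ε) := by ring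
      rw [h4]
      exact lt_of_le_of_lt (V.valuation.map_add _ _) (max_lt hεV hε')
    simp at this

end final

end Fermat.Agent.KLB
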