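import Fermat.Agent.KLB.Abs.Main
import Fermat.Agent.KLB.Abs.Chart

/-!
# KL-B abstract part: Theorem G, final form
-/

namespace Fermat.Agent.KLB

variable {A L E : Type*} [CommRing A] [IsDomain A] [IsDiscreteValuationRing A] [Field L] [Field E]
  [Algebra A L] [Algebra L E] [Algebra A E] [IsScalarTower A L E] [FiniteDimensional L E]
  [Algebra.IsSeparable L E] {x : L} (hx : IsCoord A x) {π : A} (hπ : Irreducible π)

include hx hπ

/-- **Theorem G**.  `A` a DVR with uniformiser `π`, `L = Frac(A)(x)`, `E/L` finite separable such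
that the elements of `E` integral over `A` lie in `A`.  Assume that `E/L` is unramified at the
Gauss valuation (`hv`) and that on both charts of the generic fibre the codifferent is bounded by
a polynomial `κ` whose reduction modulo `π` is squarefree.  Then the Gauss valuation has a unique
extension to `E`. -/
theorem gauss_unique' (hconst : ∀ y : E, IsIntegral A y → y ∈ (algebraMap A E).range)
    {Og : Subring L} (hOg : IsLocSub (ndvd (hx.prime hπ)) Og) (hv : Unr Og L E)
    {OK₁ OK₂ : Subring L}
    (hOK₁ : IsLocSub (Submonoid.powers (algebraMap A (Algebra.adjoin A {x}) π)) OK₁)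
    (hOK₂ : IsLocSub (Submonoid.powers (algebraMap A (Algebra.adjoin A {x⁻¹}) π)) OK₂)
    {κ₁ : Algebra.adjoin A {x}} {κ₂ : Algebra.adjoin A {x⁻¹}}
    (hκ₁ : Squarefree (Ideal.Quotient.mk (Ideal.span {algebraMap A (Algebra.adjoin A {x}) π}) κ₁))
    (hκ₂ : Squarefree
      (Ideal.Quotient.mk (Ideal.span {algebraMap A (Algebra.adjoin A {x⁻¹}) π}) κ₂))
    (N : ℕ) (hg₁ : TameBound OK₁ L E (algebraMap _ E κ₁) N)
    (hg₂ : TameBound OK₂ L E (algebraMap _ E κ₂) N)
    (V W : ValuationSubring E)
    (hV : V.toSubring.comap (algebraMap L E) = Og) (hW : W.toSubring.comap (algebraMap L E) = Og) :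
    V = W := by
  have := hx.frac
  have := hx.isIntegrallyClosed
  have := hx.isNoetherianRing
  have := hx.isPrincipalIdealRing hπ
  have := hx.inv.frac
  have := hx.inv.isIntegrallyClosed
  have := hx.inv.isNoetherianRing
  have := hx.inv.isPrincipalIdealRing hπ
  exact gauss_unique hx hπ hconst hOg
    (fun ε hε => nearInt_of_idemMod (hx.prime hπ) hOg hOK₁ hκ₁ N hv hg₁ hε)
    (fun ε hε => nearInt_of_idemMod (hx.inv.prime hπ) (hx.isLocSub_inv hπ hOg) hOK₂ hκ₂ N hv hg₂ hε)
    V W hV hW

end Fermat.Agent.KLB
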