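import Fermat.Agent.KLB.Abs.Loc

/-!
# KL-B abstract part, node POLY

The rings `A[x]`, `A[x⁻¹]`, `A[x, x⁻¹]` inside `L = Frac A (x)`, for a discrete valuation ring `A`
and a transcendental element `x`.
-/

namespace Fermat.Agent.KLB

open Polynomial

/-! ## POLY : the rings `A[x]`, `A[x⁻¹]`, `A[x, x⁻¹]` inside `L = Frac A (x)` -/

/-- `x` is a coordinate of `L` over `A`: transcendental, and `L` is the fraction field of `A[x]`. -/
structure IsCoord (A : Type*) {L : Type*} [CommRing A] [Field L] [Algebra A L] (x : L) : Prop where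
  trans : Transcendental A x
  frac : IsFractionRing (Algebra.adjoin A {x}) L

section Aux

variable {A L : Type*} [CommRing A] [Field L] [Algebra A L] {x : L}

/-- the isomorphism `A[X] ≃ A[x]` -/
noncomputable def polyEquiv (hx : Transcendental A x) : A[X] ≃ₐ[A] Algebra.adjoin A {x} :=
  Polynomial.algEquivOfTranscendental A x hx

theorem coe_polyEquiv (hx : Transcendental A x) (p : A[X]) :
    ((polyEquiv hx p : Algebra.adjoin A {x}) : L) = aeval x p := by
  rw [polyEquiv, Polynomial.algEquivOfTranscendental_apply]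
  exact (Polynomial.aeval_algHom_apply (Algebra.adjoin A {x}).val
    ⟨x, Algebra.self_mem_adjoin_singleton A x⟩ p).symm

theorem polyEquiv_C (hx : Transcendental A x) (a : A) :
    polyEquiv hx (C a) = algebraMap A (Algebra.adjoin A {x}) a :=
  (polyEquiv hx).commutes a

theorem aeval_injective_of_transcendental (hx : Transcendental A x) :
    Function.Injective (aeval x : A[X] →ₐ[A] L) :=
  transcendental_iff_injective.mp hx

theorem ne_zero_of_transcendental (hx : Transcendental A x) : x ≠ 0 := by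
  rintro rfl
  have h : (aeval (0 : L) : A[X] →ₐ[A] L) X = aeval (0 : L) (0 : A[X]) := by simp
  have : Nontrivial A := by
    by_contra hA
    rw [not_nontrivial_iff_subsingleton] at hA
    have h1 : (1 : L) = 0 := by
      rw [← map_one (algebraMap A L), Subsingleton.elim (1 : A) 0, map_zero]
    exact one_ne_zero h1
  exact X_ne_zero (aeval_injective_of_transcendental hx h)

theorem aeval_inv_reflect (hx0 : x ≠ 0) (N : ℕ) (p : A[X]) (hp : p.natDegree ≤ N) :
    aeval x⁻¹ (reflect N p) * x ^ N = aeval x p := by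
  let _ := invertibleOfNonzero hx0
  have h := eval₂_reflect_mul_pow (algebraMap A L) x N p hp
  rwa [invOf_eq_inv] at h

theorem C_dvd_reflect_iff (π : A) (N : ℕ) (p : A[X]) : C π ∣ reflect N p ↔ C π ∣ p := by
  rw [C_dvd_iff_dvd_coeff, C_dvd_iff_dvd_coeff]
  constructor
  · intro h i
    have := h (revAt N i)
    rwa [coeff_reflect, revAt_invol] at this
  · intro h i
    rw [coeff_reflect]
    exact h _

theorem C_dvd_X_pow_mul_iff (π : A) (m : ℕ) (p : A[X]) : C π ∣ X ^ m * p ↔ C π ∣ p := by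
  rw [C_dvd_iff_dvd_coeff, C_dvd_iff_dvd_coeff]
  constructor
  · intro h i
    have := h (i + m)
    rwa [coeff_X_pow_mul] at this
  · intro h i
    rw [coeff_X_pow_mul']
    split_ifs
    · exact h _
    · exact dvd_zero _

/-- `a` is a quotient `S(x) / D(x)` of polynomials with `D` not divisible by `π`. -/
def GaussFrac (π : A) (x a : L) : Prop :=
  ∃ D S : A[X], ¬ C π ∣ D ∧ aeval x D * a = aeval x S

theorem GaussFrac.inv {π : A} {a : L} (hx0 : x ≠ 0) (h : GaussFrac π x a) :
    GaussFrac π x⁻¹ a := by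
  obtain ⟨D, S, hD, h⟩ := h
  set N := max D.natDegree S.natDegree with hN
  refine ⟨reflect N D, reflect N S, fun hd => hD ((C_dvd_reflect_iff π N D).mp hd), ?_⟩
  have h1 := aeval_inv_reflect (A := A) hx0 N D (le_max_left _ _)
  have h2 := aeval_inv_reflect (A := A) hx0 N S (le_max_right _ _)
  have hxN : x ^ N ≠ 0 := pow_ne_zero _ hx0
  apply mul_right_cancel₀ hxN
  rw [h2, ← h, ← h1]
  ring

theorem gaussFrac_inv_iff {π : A} {a : L} (hx0 : x ≠ 0) :
    GaussFrac π x⁻¹ a ↔ GaussFrac π x a := by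
  constructor
  · intro h
    have := h.inv (inv_ne_zero hx0)
    rwa [inv_inv] at this
  · exact fun h => h.inv hx0

/-- Elements of `A[x, x⁻¹]` are the `x⁻ⁿ p(x)`. -/
theorem mem_adjoin_pair_iff (hx0 : x ≠ 0) (a : L) :
    a ∈ Algebra.adjoin A {x, x⁻¹} ↔ ∃ (n : ℕ) (p : A[X]), x ^ n * a = aeval x p := by
  constructor
  · intro ha
    induction ha using Algebra.adjoin_induction with
    | mem y hy =>
      rcases hy with rfl | hy
      · exact ⟨0, X, by simp⟩
      · rw [Set.mem_singleton_iff] at hy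
        subst hy
        exact ⟨1, 1, by simp [hx0]⟩
    | algebraMap r => exact ⟨0, C r, by simp⟩
    | add y z _ _ hy hz =>
      obtain ⟨n, p, hp⟩ := hy
      obtain ⟨m, q, hq⟩ := hz
      refine ⟨n + m, X ^ m * p + X ^ n * q, ?_⟩
      simp only [map_add, map_mul, map_pow, aeval_X, ← hp, ← hq]
      ring
    | mul y z _ _ hy hz =>
      obtain ⟨n, p, hp⟩ := hy
      obtain ⟨m, q, hq⟩ := hz
      refine ⟨n + m, p * q, ?_⟩
      simp only [map_mul, ← hp, ← hq]
      ring
  · rintro ⟨n, p, hp⟩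
    have h1 : a = x⁻¹ ^ n * aeval x p := by
      rw [← hp, ← mul_assoc, ← mul_pow, inv_mul_cancel₀ hx0, one_pow, one_mul]
    rw [h1]
    refine mul_mem (pow_mem (Algebra.subset_adjoin (by simp)) n) ?_
    exact Algebra.adjoin_mono (by simp) (aeval_mem_adjoin_singleton A x)

end Aux

section POLY

variable {A L : Type*} [CommRing A] [IsDomain A] [IsDiscreteValuationRing A] [Field L]
  [Algebra A L] {x : L} (hx : IsCoord A x) {π : A} (hπ : Irreducible π)

include hx

theorem IsCoord.ne_zero : x ≠ 0 := ne_zero_of_transcendental hx.trans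

theorem IsCoord.exists_div (z : L) :
    ∃ P Q : A[X], aeval x Q ≠ 0 ∧ z = aeval x P / aeval x Q := by
  have := hx.frac
  obtain ⟨a, b, hb, rfl⟩ := IsFractionRing.div_surjective (A := Algebra.adjoin A {x}) z
  obtain ⟨P, rfl⟩ := (polyEquiv hx.trans).surjective a
  obtain ⟨Q, rfl⟩ := (polyEquiv hx.trans).surjective b
  refine ⟨P, Q, ?_, ?_⟩
  · rw [← coe_polyEquiv hx.trans]
    intro h0
    have : polyEquiv hx.trans Q = 0 := Subtype.ext h0
    exact (nonZeroDivisors.ne_zero hb) this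
  · rw [← coe_polyEquiv hx.trans, ← coe_polyEquiv hx.trans]
    rfl

theorem IsCoord.inv : IsCoord A x⁻¹ := by
  refine ⟨fun h => hx.trans (IsAlgebraic.inv_iff.mp h), ?_⟩
  apply IsFractionRing.of_field
  intro z
  obtain ⟨P, Q, hQ, rfl⟩ := hx.exists_div z
  set N := max P.natDegree Q.natDegree with hN
  have h1 := aeval_inv_reflect (A := A) hx.ne_zero N P (le_max_left _ _)
  have h2 := aeval_inv_reflect (A := A) hx.ne_zero N Q (le_max_right _ _)
  refine ⟨⟨aeval x⁻¹ (reflect N P), aeval_mem_adjoin_singleton A _⟩,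
    ⟨aeval x⁻¹ (reflect N Q), aeval_mem_adjoin_singleton A _⟩, ?_⟩
  have hxN : x ^ N ≠ 0 := pow_ne_zero _ hx.ne_zero
  show aeval x P / aeval x Q = aeval x⁻¹ (reflect N P) / aeval x⁻¹ (reflect N Q)
  rw [← h1, ← h2, mul_div_mul_right _ _ hxN]

theorem IsCoord.isIntegrallyClosed : IsIntegrallyClosed (Algebra.adjoin A {x}) :=
  IsIntegrallyClosed.of_equiv (polyEquiv hx.trans).toRingEquiv

theorem IsCoord.isNoetherianRing : IsNoetherianRing (Algebra.adjoin A {x}) :=
  isNoetherianRing_of_ringEquiv A[X] (polyEquiv hx.trans).toRingEquiv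

theorem IsCoord.frac₂ : IsFractionRing (Algebra.adjoin A {x, x⁻¹}) L := by
  apply IsFractionRing.of_field
  intro z
  obtain ⟨P, Q, _, rfl⟩ := hx.exists_div z
  have hle : Algebra.adjoin A {x} ≤ Algebra.adjoin A {x, x⁻¹} := Algebra.adjoin_mono (by simp)
  exact ⟨⟨aeval x P, hle (aeval_mem_adjoin_singleton A _)⟩,
    ⟨aeval x Q, hle (aeval_mem_adjoin_singleton A _)⟩, rfl⟩

/-- `A[x, x⁻¹]` is the localisation of `A[x]` at the powers of `x`. -/
theorem IsCoord.isLocSub_powers :
    IsLocSub (Submonoid.powers (⟨x, Algebra.self_mem_adjoin_singleton A x⟩ : Algebra.adjoin A {x}))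
      (Algebra.adjoin A {x, x⁻¹}).toSubring := by
  intro a
  rw [Subalgebra.mem_toSubring, mem_adjoin_pair_iff hx.ne_zero]
  constructor
  · rintro ⟨n, p, hp⟩
    exact ⟨_, ⟨n, rfl⟩, ⟨aeval x p, aeval_mem_adjoin_singleton A _⟩, hp⟩
  · rintro ⟨_, ⟨n, rfl⟩, s, hs⟩
    obtain ⟨p, rfl⟩ := (polyEquiv hx.trans).surjective s
    refine ⟨n, p, ?_⟩
    rw [← coe_polyEquiv hx.trans]
    exact hs

theorem IsCoord.isIntegrallyClosed₂ : IsIntegrallyClosed (Algebra.adjoin A {x, x⁻¹}) := by
  have := hx.frac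
  have := hx.frac₂
  have := hx.isIntegrallyClosed
  rw [isIntegrallyClosed_iff L]
  intro a ha
  have hT : Submonoid.powers
      (⟨x, Algebra.self_mem_adjoin_singleton A x⟩ : Algebra.adjoin A {x}) ≤
      nonZeroDivisors (Algebra.adjoin A {x}) := by
    apply Submonoid.powers_le.mpr
    apply mem_nonZeroDivisors_of_ne_zero
    intro h0
    exact hx.ne_zero (congrArg Subtype.val h0)
  have ha' : IsIntegral (Algebra.adjoin A {x, x⁻¹}).toSubring a := ha
  have := hx.isLocSub_powers.mem_of_isIntegral hT ha'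
  exact ⟨⟨a, this⟩, rfl⟩

theorem IsCoord.inter {a : L} (h₁ : a ∈ Algebra.adjoin A {x}) (h₂ : a ∈ Algebra.adjoin A {x⁻¹}) :
    a ∈ (algebraMap A L).range := by
  obtain ⟨p, rfl⟩ := Algebra.adjoin_mem_exists_aeval _ _ h₁
  obtain ⟨q, hq⟩ := Algebra.adjoin_mem_exists_aeval _ _ h₂
  set n := q.natDegree with hn
  -- `x ^ n * p(x) = (reflect n q)(x)`
  have h1 := aeval_inv_reflect (A := A) (inv_ne_zero hx.ne_zero) n q le_rfl
  rw [inv_inv, hq] at h1
  have h2 : aeval x (X ^ n * p) = aeval x (reflect n q) := by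
    rw [map_mul, map_pow, aeval_X, ← h1, mul_comm, mul_assoc, ← mul_pow,
      inv_mul_cancel₀ hx.ne_zero, one_pow, mul_one]
  have h3 : X ^ n * p = reflect n q := aeval_injective_of_transcendental hx.trans h2
  rcases eq_or_ne p 0 with rfl | hp
  · exact ⟨0, by simp⟩
  have h4 : (X ^ n * p).natDegree = n + p.natDegree := by
    rw [natDegree_mul (pow_ne_zero _ X_ne_zero) hp, natDegree_X_pow]
  have h5 : (reflect n q).natDegree ≤ n := by
    rw [natDegree_le_iff_coeff_eq_zero]
    intro i hi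
    rw [coeff_reflect, revAt_eq_self_of_lt hi]
    exact coeff_eq_zero_of_natDegree_lt hi
  rw [← h3, h4] at h5
  have h6 : p.natDegree = 0 := by omega
  rw [eq_C_of_natDegree_eq_zero h6]
  exact ⟨p.coeff 0, by simp⟩

include hπ

theorem IsCoord.prime : Prime (algebraMap A (Algebra.adjoin A {x}) π) := by
  rw [← polyEquiv_C hx.trans]
  exact (MulEquiv.prime_iff (polyEquiv hx.trans).toMulEquiv).mpr
    (Polynomial.prime_C_iff.mpr hπ.prime)

omit hπ in
/-- divisibility by `π` in `A[x]` -/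
theorem IsCoord.dvd_iff (p : A[X]) :
    algebraMap A (Algebra.adjoin A {x}) π ∣ polyEquiv hx.trans p ↔ C π ∣ p := by
  rw [← polyEquiv_C hx.trans]
  exact map_dvd_iff (polyEquiv hx.trans)

omit hπ in
/-- divisibility by `π` in `A[x, x⁻¹]` -/
theorem IsCoord.dvd_iff₂ (b : Algebra.adjoin A {x, x⁻¹}) (n : ℕ) (p : A[X])
    (h : x ^ n * (b : L) = aeval x p) :
    algebraMap A (Algebra.adjoin A {x, x⁻¹}) π ∣ b ↔ C π ∣ p := by
  constructor
  · rintro ⟨c, rfl⟩
    obtain ⟨m, r, hr⟩ := (mem_adjoin_pair_iff (A := A) hx.ne_zero (c : L)).mp c.2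
    have h1 : aeval x (X ^ m * p) = aeval x (C π * (X ^ n * r)) := by
      simp only [map_mul, map_pow, aeval_X, aeval_C, ← h, ← hr]
      have : ((algebraMap A (Algebra.adjoin A {x, x⁻¹}) π * c : Algebra.adjoin A {x, x⁻¹}) : L)
          = algebraMap A L π * (c : L) := rfl
      rw [this]
      ring
    have h2 := aeval_injective_of_transcendental hx.trans h1
    exact (C_dvd_X_pow_mul_iff π m p).mp ⟨_, h2⟩
  · rintro ⟨r, rfl⟩
    have hmem : x⁻¹ ^ n * aeval x r ∈ Algebra.adjoin A {x, x⁻¹} :=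
      (mem_adjoin_pair_iff (A := A) hx.ne_zero _).mpr ⟨n, r, by
        rw [← mul_assoc, ← mul_pow, mul_inv_cancel₀ hx.ne_zero, one_pow, one_mul]⟩
    refine ⟨⟨_, hmem⟩, Subtype.ext ?_⟩
    show (b : L) = algebraMap A L π * (x⁻¹ ^ n * aeval x r)
    have hxn : x ^ n ≠ 0 := pow_ne_zero _ hx.ne_zero
    apply mul_left_cancel₀ hxn
    rw [h, map_mul, aeval_C]
    have : x ^ n * x⁻¹ ^ n = 1 := by rw [← mul_pow, mul_inv_cancel₀ hx.ne_zero, one_pow]
    calc algebraMap A L π * aeval x r = (x ^ n * x⁻¹ ^ n) * (algebraMap A L π * aeval x r) := by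
          rw [this, one_mul]
      _ = _ := by ring

theorem IsCoord.prime₂ : Prime (algebraMap A (Algebra.adjoin A {x, x⁻¹}) π) := by
  have hC : Prime (C π : A[X]) := Polynomial.prime_C_iff.mpr hπ.prime
  refine ⟨?_, ?_, ?_⟩
  · intro h0
    have h1 : algebraMap A (Algebra.adjoin A {x, x⁻¹}) π ∣ 0 := dvd_zero _
    have h2 : aeval x (C π : A[X]) = aeval x (0 : A[X]) := by
      rw [aeval_C, map_zero]
      exact congrArg Subtype.val h0
    exact hC.ne_zero (aeval_injective_of_transcendental hx.trans h2)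
  · intro hu
    have h1 : algebraMap A (Algebra.adjoin A {x, x⁻¹}) π ∣ 1 := hu.dvd
    have h2 := (hx.dvd_iff₂ (π := π) 1 0 1 (by simp)).mp h1
    exact hC.not_dvd_one h2
  · intro a b hab
    obtain ⟨n, p, hp⟩ := (mem_adjoin_pair_iff (A := A) hx.ne_zero (a : L)).mp a.2
    obtain ⟨m, q, hq⟩ := (mem_adjoin_pair_iff (A := A) hx.ne_zero (b : L)).mp b.2
    have h1 : x ^ (n + m) * ((a * b : Algebra.adjoin A {x, x⁻¹}) : L) = aeval x (p * q) := by
      rw [map_mul, ← hp, ← hq]
      push_cast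
      ring
    have h2 := (hx.dvd_iff₂ (π := π) (a * b) (n + m) (p * q) h1).mp hab
    rcases hC.dvd_or_dvd h2 with h | h
    · exact Or.inl ((hx.dvd_iff₂ a n p hp).mpr h)
    · exact Or.inr ((hx.dvd_iff₂ b m q hq).mpr h)

theorem IsCoord.isPrincipalIdealRing :
    IsPrincipalIdealRing
      (Algebra.adjoin A {x} ⧸ Ideal.span {algebraMap A (Algebra.adjoin A {x}) π}) := by
  have hmax : (Ideal.span {π}).IsMaximal := by
    rw [← (IsDiscreteValuationRing.irreducible_iff_uniformizer π).mp hπ]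
    infer_instance
  let _ : Field (A ⧸ Ideal.span {π}) := Ideal.Quotient.field _
  have e1 : (A ⧸ Ideal.span {π})[X] ≃+* A[X] ⧸ (Ideal.span {π}).map (C : A →+* A[X]) :=
    Ideal.polynomialQuotientEquivQuotientPolynomial _
  have hmap : Ideal.span {algebraMap A (Algebra.adjoin A {x}) π} =
      ((Ideal.span {π}).map (C : A →+* A[X])).map (polyEquiv hx.trans).toRingEquiv := by
    rw [Ideal.map_span, Ideal.map_span]
    simp [polyEquiv_C]
  have e2 : A[X] ⧸ (Ideal.span {π}).map (C : A →+* A[X]) ≃+*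
      Algebra.adjoin A {x} ⧸ Ideal.span {algebraMap A (Algebra.adjoin A {x}) π} :=
    Ideal.quotientEquiv _ _ (polyEquiv hx.trans).toRingEquiv hmap
  exact IsPrincipalIdealRing.of_surjective (e1.trans e2).toRingHom (e1.trans e2).surjective

/-- The localisation of `A[x]` at the elements prime to `π`, in terms of polynomials. -/
theorem IsCoord.exists_ndvd_iff (a : L) :
    (∃ d ∈ ndvd (hx.prime hπ), ∃ s : Algebra.adjoin A {x},
      algebraMap (Algebra.adjoin A {x}) L d * a = algebraMap (Algebra.adjoin A {x}) L s) ↔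
      GaussFrac π x a := by
  constructor
  · rintro ⟨d, hd, s, h⟩
    obtain ⟨D, rfl⟩ := (polyEquiv hx.trans).surjective d
    obtain ⟨S, rfl⟩ := (polyEquiv hx.trans).surjective s
    refine ⟨D, S, fun hD => hd ((hx.dvd_iff D).mpr hD), ?_⟩
    rw [← coe_polyEquiv hx.trans, ← coe_polyEquiv hx.trans]
    exact h
  · rintro ⟨D, S, hD, h⟩
    refine ⟨polyEquiv hx.trans D, fun hd => hD ((hx.dvd_iff D).mp hd), polyEquiv hx.trans S, ?_⟩
    rw [← coe_polyEquiv hx.trans, ← coe_polyEquiv hx.trans] at h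
    exact h

/-- The localisation of `A[x, x⁻¹]` at the elements prime to `π`, in terms of polynomials. -/
theorem IsCoord.exists_ndvd_iff₂ (a : L) :
    (∃ d ∈ ndvd (hx.prime₂ hπ), ∃ s : Algebra.adjoin A {x, x⁻¹},
      algebraMap (Algebra.adjoin A {x, x⁻¹}) L d * a =
        algebraMap (Algebra.adjoin A {x, x⁻¹}) L s) ↔ GaussFrac π x a := by
  constructor
  · rintro ⟨d, hd, s, h⟩
    obtain ⟨n, D, hD⟩ := (mem_adjoin_pair_iff (A := A) hx.ne_zero (d : L)).mp d.2
    obtain ⟨m, S, hS⟩ := (mem_adjoin_pair_iff (A := A) hx.ne_zero (s : L)).mp s.2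
    have h' : (d : L) * a = (s : L) := h
    refine ⟨X ^ m * D, X ^ n * S, ?_, ?_⟩
    · rw [C_dvd_X_pow_mul_iff]
      exact fun hd' => hd ((hx.dvd_iff₂ d n D hD).mpr hd')
    · simp only [map_mul, map_pow, aeval_X, ← hD, ← hS, ← h']
      ring
  · rintro ⟨D, S, hD, h⟩
    have hle : Algebra.adjoin A {x} ≤ Algebra.adjoin A {x, x⁻¹} := Algebra.adjoin_mono (by simp)
    refine ⟨⟨aeval x D, hle (aeval_mem_adjoin_singleton A _)⟩, ?_,
      ⟨aeval x S, hle (aeval_mem_adjoin_singleton A _)⟩, h⟩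
    intro hd
    exact hD ((hx.dvd_iff₂ _ 0 D (by simp)).mp hd)

/-- The Gauss ring does not depend on the chart. -/
theorem IsCoord.isLocSub_inv {Og : Subring L} (h : IsLocSub (ndvd (hx.prime hπ)) Og) :
    IsLocSub (ndvd (hx.inv.prime hπ)) Og := by
  intro a
  rw [h a, hx.exists_ndvd_iff hπ, hx.inv.exists_ndvd_iff hπ, gaussFrac_inv_iff hx.ne_zero]

theorem IsCoord.isLocSub₂ {Og : Subring L} (h : IsLocSub (ndvd (hx.prime hπ)) Og) :
    IsLocSub (ndvd (hx.prime₂ hπ)) Og := by
  intro a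
  rw [h a, hx.exists_ndvd_iff hπ, hx.exists_ndvd_iff₂ hπ]

end POLY

end Fermat.Agent.KLB
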