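import Fermat.Agent.KLB.Abs.Loc

/-!
# KL-B abstract part, node SH

For `ε` idempotent modulo `π R_π` and `z` integral over `S`, the trace of `ε z` lies in
`S + π Oπ`.  The proof shows that the subring `S + π Oπ` of `L` is integrally closed in `L`
(here we use that `S / π` is a principal ideal domain, hence integrally closed) and that `ε` is
integral over it.
-/

namespace Fermat.Agent.KLB

open Polynomial

section abstract

variable {S L E : Type*} [CommRing S] [IsDomain S] [IsIntegrallyClosed S] [Field L] [Field E]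
  [Algebra S L] [IsFractionRing S L] [Algebra L E] [Algebra S E] [IsScalarTower S L E]
  {π : S} (hπ : Prime π) {Oπ : Subring L} (hOπ : IsLocSub (ndvd hπ) Oπ)

omit [IsIntegrallyClosed S] in
theorem sh_ndvd_le : ndvd hπ ≤ nonZeroDivisors S := by
  intro d hd
  rw [mem_nonZeroDivisors_iff_ne_zero]
  rintro rfl
  exact hd (dvd_zero π)

include hOπ

omit [IsIntegrallyClosed S] [IsDomain S] in
/-- `π Oπ ∩ S = π S`. -/
theorem sh_dvd_of_eq_mul_mem {x : S} {b : L} (hb : b ∈ Oπ)
    (h : algebraMap S L x = algebraMap S L π * b) : π ∣ x := by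
  obtain ⟨d, hd, s, hs⟩ := (hOπ b).mp hb
  have h1 : algebraMap S L (d * x) = algebraMap S L (π * s) := by
    rw [map_mul, map_mul, h, ← hs]; ring
  have h2 : d * x = π * s := IsFractionRing.injective S L h1
  have h3 : π ∣ d * x := ⟨s, h2⟩
  exact (hπ.dvd_or_dvd h3).resolve_left hd

omit [IsIntegrallyClosed S] in
/-- The subring `S + π Oπ` of `L`. -/
def shSub : Subring L where
  carrier := {a | ∃ s : S, ∃ b ∈ Oπ, a = algebraMap S L s + algebraMap S L π * b}
  one_mem' := ⟨1, 0, Oπ.zero_mem, by simp⟩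
  zero_mem' := ⟨0, 0, Oπ.zero_mem, by simp⟩
  add_mem' := by
    rintro _ _ ⟨s, b, hb, rfl⟩ ⟨s', b', hb', rfl⟩
    exact ⟨s + s', b + b', Oπ.add_mem hb hb', by rw [map_add]; ring⟩
  neg_mem' := by
    rintro _ ⟨s, b, hb, rfl⟩
    exact ⟨-s, -b, Oπ.neg_mem hb, by rw [map_neg]; ring⟩
  mul_mem' := by
    rintro _ _ ⟨s, b, hb, rfl⟩ ⟨s', b', hb', rfl⟩
    refine ⟨s * s', algebraMap S L s * b' + b * algebraMap S L s' +
      algebraMap S L π * b * b', ?_, by rw [map_mul]; ring⟩
    exact Oπ.add_mem (Oπ.add_mem (Oπ.mul_mem (hOπ.algebraMap_mem s) hb')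
      (Oπ.mul_mem hb (hOπ.algebraMap_mem s')))
      (Oπ.mul_mem (Oπ.mul_mem (hOπ.algebraMap_mem π) hb) hb')

omit [IsIntegrallyClosed S] in
theorem mem_shSub {a : L} : a ∈ shSub hπ hOπ ↔
    ∃ s : S, ∃ b ∈ Oπ, a = algebraMap S L s + algebraMap S L π * b := Iff.rfl

omit [IsIntegrallyClosed S] in
theorem shSub_le : shSub hπ hOπ ≤ Oπ := by
  rintro _ ⟨s, b, hb, rfl⟩
  exact Oπ.add_mem (hOπ.algebraMap_mem s) (Oπ.mul_mem (hOπ.algebraMap_mem π) hb)

omit [IsIntegrallyClosed S] in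
theorem algebraMap_mem_shSub (s : S) : algebraMap S L s ∈ shSub hπ hOπ :=
  ⟨s, 0, Oπ.zero_mem, by simp⟩

omit [IsIntegrallyClosed S] in
theorem pi_mul_mem_shSub {b : L} (hb : b ∈ Oπ) : algebraMap S L π * b ∈ shSub hπ hOπ :=
  ⟨0, b, hb, by simp⟩

/-- The underlying function of the reduction `S + π Oπ → S / π`. -/
noncomputable def shRedFun (a : shSub hπ hOπ) : S ⧸ Ideal.span {π} :=
  Ideal.Quotient.mk _ a.2.choose

omit [IsIntegrallyClosed S] in
theorem shRedFun_eq (a : shSub hπ hOπ) {s : S} {b : L} (hb : b ∈ Oπ)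
    (h : (a : L) = algebraMap S L s + algebraMap S L π * b) :
    shRedFun hπ hOπ a = Ideal.Quotient.mk _ s := by
  obtain ⟨b', hb', h'⟩ := a.2.choose_spec
  unfold shRedFun
  rw [Ideal.Quotient.eq, Ideal.mem_span_singleton]
  refine sh_dvd_of_eq_mul_mem hπ hOπ (Oπ.sub_mem hb hb') ?_
  rw [map_sub]
  linear_combination h - h'

/-- The reduction `S + π Oπ → S / π`. -/
noncomputable def shRed : shSub hπ hOπ →+* S ⧸ Ideal.span {π} where
  toFun := shRedFun hπ hOπ
  map_one' := by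
    rw [shRedFun_eq hπ hOπ 1 (s := 1) Oπ.zero_mem (by simp), map_one]
  map_zero' := by
    rw [shRedFun_eq hπ hOπ 0 (s := 0) Oπ.zero_mem (by simp), map_zero]
  map_add' := by
    intro x y
    obtain ⟨s, b, hb, hx⟩ := (mem_shSub hπ hOπ).mp x.2
    obtain ⟨s', b', hb', hy⟩ := (mem_shSub hπ hOπ).mp y.2
    rw [shRedFun_eq hπ hOπ x hb hx, shRedFun_eq hπ hOπ y hb' hy, ← map_add]
    refine shRedFun_eq hπ hOπ _ (Oπ.add_mem hb hb') ?_
    simp only [Subring.coe_add, map_add, hx, hy]; ring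
  map_mul' := by
    intro x y
    obtain ⟨s, b, hb, hx⟩ := (mem_shSub hπ hOπ).mp x.2
    obtain ⟨s', b', hb', hy⟩ := (mem_shSub hπ hOπ).mp y.2
    rw [shRedFun_eq hπ hOπ x hb hx, shRedFun_eq hπ hOπ y hb' hy, ← map_mul]
    refine shRedFun_eq hπ hOπ _ (b := algebraMap S L s * b' + b * algebraMap S L s' +
      algebraMap S L π * b * b') ?_ ?_
    · exact Oπ.add_mem (Oπ.add_mem (Oπ.mul_mem (hOπ.algebraMap_mem s) hb')
        (Oπ.mul_mem hb (hOπ.algebraMap_mem s')))
        (Oπ.mul_mem (Oπ.mul_mem (hOπ.algebraMap_mem π) hb) hb')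
    · simp only [Subring.coe_mul, map_mul, hx, hy]; ring

omit [IsIntegrallyClosed S] in
theorem shRed_algebraMap (s : S) :
    shRed hπ hOπ ⟨algebraMap S L s, algebraMap_mem_shSub hπ hOπ s⟩ = Ideal.Quotient.mk _ s :=
  shRedFun_eq hπ hOπ _ Oπ.zero_mem (by simp)

omit [IsIntegrallyClosed S] in
/-- Integrality over `S + π Oπ` implies integrality over `Oπ`. -/
theorem isIntegral_of_shSub {A : Type*} [CommRing A] [Algebra L A] {y : A}
    (hy : IsIntegral (shSub hπ hOπ) y) : IsIntegral Oπ y := by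
  obtain ⟨p, hp, hpy⟩ := hy
  refine ⟨p.map (Subring.inclusion (shSub_le hπ hOπ)), hp.map _, ?_⟩
  rw [eval₂_map]
  exact hpy

/-- `S + π Oπ` is integrally closed in `L`. -/
theorem mem_shSub_of_isIntegral [IsPrincipalIdealRing (S ⧸ Ideal.span {π})] {a : L}
    (ha : IsIntegral (shSub hπ hOπ) a) : a ∈ shSub hπ hOπ := by
  have hprime : (Ideal.span {π}).IsPrime := (Ideal.span_singleton_prime hπ.ne_zero).mpr hπ
  have haO : a ∈ Oπ :=
    hOπ.mem_of_isIntegral (sh_ndvd_le hπ) (isIntegral_of_shSub hπ hOπ ha)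
  obtain ⟨d, hd, n, hdn⟩ := (hOπ a).mp haO
  obtain ⟨p, hp, hpa⟩ := ha
  set k := S ⧸ Ideal.span {π} with hk
  set K := FractionRing k with hK
  set ψ := shRed hπ hOπ with hψ
  set d' : shSub hπ hOπ := ⟨algebraMap S L d, algebraMap_mem_shSub hπ hOπ d⟩ with hd'
  set n' : shSub hπ hOπ := ⟨algebraMap S L n, algebraMap_mem_shSub hπ hOπ n⟩ with hn'
  have hψd : ψ d' = Ideal.Quotient.mk _ d := shRed_algebraMap hπ hOπ d
  have hψn : ψ n' = Ideal.Quotient.mk _ n := shRed_algebraMap hπ hOπ n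
  have hd0 : ψ d' ≠ 0 := by
    rw [hψd, Ne, Ideal.Quotient.eq_zero_iff_mem, Ideal.mem_span_singleton]
    exact hd
  -- `n` is a root of the scaled polynomial
  have h1 : eval n' (p.scaleRoots d') = 0 := by
    have := scaleRoots_eval₂_mul (p := p) (algebraMap (shSub hπ hOπ) L) a d'
    rw [hpa, mul_zero] at this
    have h2 : algebraMap (shSub hπ hOπ) L d' * a = algebraMap (shSub hπ hOπ) L n' := hdn
    rw [h2, eval₂_at_apply] at this
    exact (FaithfulSMul.algebraMap_injective (shSub hπ hOπ) L) (by rw [this, map_zero])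
  have h2 : eval (ψ n') ((p.map ψ).scaleRoots (ψ d')) = 0 := by
    rw [← map_scaleRoots p d' ψ (by rw [hp.leadingCoeff, map_one]; exact one_ne_zero),
      eval_map, eval₂_at_apply, h1, map_zero]
  have hgd : algebraMap k K (ψ d') ≠ 0 := by
    rwa [Ne, FaithfulSMul.algebraMap_eq_zero_iff]
  have h3 : IsIntegral k (algebraMap k K (ψ n') / algebraMap k K (ψ d')) := by
    refine ⟨p.map ψ, hp.map ψ, ?_⟩
    have := scaleRoots_eval₂_mul (p := p.map ψ) (algebraMap k K)
      (algebraMap k K (ψ n') / algebraMap k K (ψ d')) (ψ d')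
    rw [mul_div_cancel₀ _ hgd, eval₂_at_apply, h2, map_zero] at this
    exact (mul_eq_zero.mp this.symm).resolve_left (pow_ne_zero _ hgd)
  obtain ⟨t', ht'⟩ := IsIntegrallyClosed.isIntegral_iff.mp h3
  obtain ⟨t, rfl⟩ := Ideal.Quotient.mk_surjective t'
  have h4 : ψ n' = ψ d' * Ideal.Quotient.mk _ t := by
    apply FaithfulSMul.algebraMap_injective k K
    rw [map_mul, ht', mul_div_cancel₀ _ hgd]
  rw [hψn, hψd, ← map_mul, Ideal.Quotient.eq, Ideal.mem_span_singleton] at h4
  obtain ⟨u, hu⟩ := h4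
  have hdL : algebraMap S L d ≠ 0 := by
    rw [Ne, FaithfulSMul.algebraMap_eq_zero_iff]
    rintro rfl
    exact hd (dvd_zero π)
  refine ⟨t, algebraMap S L u * (algebraMap S L d)⁻¹,
    Oπ.mul_mem (hOπ.algebraMap_mem u) (hOπ.inv_mem hd), ?_⟩
  have hu' : algebraMap S L n - algebraMap S L d * algebraMap S L t =
      algebraMap S L π * algebraMap S L u := by
    rw [← map_mul, ← map_mul, ← map_sub, hu]
  field_simp
  linear_combination hdn + hu'

omit [IsIntegrallyClosed S] in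
/-- `π r` is integral over `S + π Oπ` when `r` is integral over `Oπ`. -/
theorem isIntegral_shSub_pi_mul {r : E} (hr : IsIntegral Oπ r) :
    IsIntegral (shSub hπ hOπ) (algebraMap S E π * r) := by
  obtain ⟨p, hp, hpr⟩ := hr
  set π' : Oπ := ⟨algebraMap S L π, hOπ.algebraMap_mem π⟩ with hπ'
  set q : L[X] := (p.scaleRoots π').map Oπ.subtype with hq
  have hqm : q.Monic := ((monic_scaleRoots_iff π').mpr hp).map _
  have hcoe : (↑q.coeffs : Set L) ⊆ shSub hπ hOπ := by
    intro c hc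
    obtain ⟨i, -, rfl⟩ := mem_coeffs_iff.mp (Finset.mem_coe.mp hc)
    rw [hq, coeff_map, coeff_scaleRoots]
    rcases lt_trichotomy i p.natDegree with hi | hi | hi
    · obtain ⟨j, hj⟩ : ∃ j, p.natDegree - i = j + 1 := ⟨p.natDegree - i - 1, by omega⟩
      rw [hj, pow_succ, map_mul, map_mul]
      have : Oπ.subtype (p.coeff i) * (Oπ.subtype (π' ^ j) * Oπ.subtype π') =
          algebraMap S L π * (Oπ.subtype (p.coeff i * π' ^ j)) := by
        rw [map_mul]
        change _ * (_ * algebraMap S L π) = _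
        ring
      rw [this]
      exact pi_mul_mem_shSub hπ hOπ (p.coeff i * π' ^ j).2
    · rw [hi, hp.coeff_natDegree, Nat.sub_self, pow_zero, mul_one, map_one]
      exact (shSub hπ hOπ).one_mem
    · rw [coeff_eq_zero_of_natDegree_lt hi, zero_mul, map_zero]
      exact (shSub hπ hOπ).zero_mem
  refine ⟨q.toSubring (shSub hπ hOπ) hcoe, (monic_toSubring q _ hcoe).mpr hqm, ?_⟩
  have e1 : eval₂ (algebraMap (shSub hπ hOπ) E) (algebraMap S E π * r)
      (q.toSubring (shSub hπ hOπ) hcoe) =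
      eval₂ (algebraMap L E) (algebraMap S E π * r)
        ((q.toSubring (shSub hπ hOπ) hcoe).map (shSub hπ hOπ).subtype) := by
    rw [eval₂_map]; rfl
  rw [e1, map_toSubring, hq, eval₂_map]
  have e2 : algebraMap S E π = ((algebraMap L E).comp Oπ.subtype) π' := by
    rw [IsScalarTower.algebraMap_apply S L E]; rfl
  rw [e2, scaleRoots_eval₂_mul]
  have e3 : eval₂ ((algebraMap L E).comp Oπ.subtype) r p = 0 := hpr
  rw [e3, mul_zero]

omit [IsIntegrallyClosed S] in
/-- Integrality over `S` implies integrality over `S + π Oπ`. -/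
theorem isIntegral_shSub_of {z : E} (hz : IsIntegral S z) : IsIntegral (shSub hπ hOπ) z := by
  obtain ⟨p, hp, hpz⟩ := hz
  refine ⟨p.map ((algebraMap S L).codRestrict (shSub hπ hOπ) (algebraMap_mem_shSub hπ hOπ)),
    hp.map _, ?_⟩
  rw [eval₂_map]
  have : (algebraMap (shSub hπ hOπ) E).comp
      ((algebraMap S L).codRestrict (shSub hπ hOπ) (algebraMap_mem_shSub hπ hOπ)) =
      algebraMap S E := by
    ext s
    rw [IsScalarTower.algebraMap_apply S L E]; rfl
  rw [this]
  exact hpz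

omit [IsIntegrallyClosed S] in
/-- An idempotent modulo `π R_π` is integral over `S + π Oπ`. -/
theorem IdemMod.isIntegral_shSub {ε : E} (hε : IdemMod S Oπ π ε) :
    IsIntegral (shSub hπ hOπ) ε := by
  obtain ⟨-, r, hr, h⟩ := hε
  have hm : (X ^ 2 - X : (shSub hπ hOπ)[X]).Monic := by
    apply monic_X_pow_sub
    rw [degree_X]; norm_num
  have hdeg : (X ^ 2 - X : (shSub hπ hOπ)[X]).natDegree ≠ 0 := by
    rw [natDegree_sub_eq_left_of_natDegree_lt (by rw [natDegree_X, natDegree_X_pow]; norm_num),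
      natDegree_X_pow]
    norm_num
  refine IsIntegral.of_aeval_monic hm hdeg ?_
  have : aeval ε (X ^ 2 - X : (shSub hπ hOπ)[X]) = algebraMap S E π * r := by
    rw [map_sub, map_pow, aeval_X, h]
  rw [this]
  exact isIntegral_shSub_pi_mul hπ hOπ hr

variable [FiniteDimensional L E] [Algebra.IsSeparable L E] [IsNoetherianRing S]
  [IsPrincipalIdealRing (S ⧸ Ideal.span {π})]

/-! ## SH : traces of `ε z` lie in `S + π Oπ` -/
set_option linter.unusedSectionVars false in
theorem trace_idemMod_mul {ε z : E} (hε : IdemMod S Oπ π ε) (hz : IsIntegral S z) :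
    ∃ (a : S) (b : L), b ∈ Oπ ∧
      Algebra.trace L E (ε * z) = algebraMap S L a + algebraMap S L π * b := by
  have h1 : IsIntegral (shSub hπ hOπ) (ε * z) :=
    (hε.isIntegral_shSub hπ hOπ).mul (isIntegral_shSub_of hπ hOπ hz)
  obtain ⟨a, b, hb, h⟩ := mem_shSub_of_isIntegral hπ hOπ (Algebra.isIntegral_trace (L := L) h1)
  exact ⟨a, b, hb, h⟩

end abstract

end Fermat.Agent.KLB
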