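import Fermat.Agent.KLB.Abs.Free
import Fermat.Agent.KLB.Abs.Sh

/-!
# KL-B abstract part, node P
(proved by helper288)
-/

namespace Fermat.Agent.KLB

namespace PropPAux

section aux

variable {S L E : Type*} [CommRing S] [Field L] [Field E]
  [Algebra S L] [Algebra L E] [Algebra S E] [IsScalarTower S L E]

theorem trace_algebraMap_mul (t : S) (u : E) :
    Algebra.trace L E (algebraMap S E t * u) = algebraMap S L t * Algebra.trace L E u := by
  rw [IsScalarTower.algebraMap_apply S L E, ← Algebra.smul_def, map_smul, smul_eq_mul]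

theorem trace_mul_sum {n : ℕ} (w : E) (a : Fin n → S) (c : Fin n → E) :
    Algebra.trace L E (w * ∑ i, algebraMap S E (a i) * c i)
      = ∑ i, algebraMap S L (a i) * Algebra.trace L E (w * c i) := by
  rw [Finset.mul_sum, map_sum]
  refine Finset.sum_congr rfl fun i _ => ?_
  rw [← trace_algebraMap_mul, mul_left_comm]

theorem isIntegral_of_mem {O : Subring L} {a : L} (ha : a ∈ O) : IsIntegral O a :=
  isIntegral_algebraMap (R := O) (x := ⟨a, ha⟩)

end aux

end PropPAux

section abstract

variable {S L E : Type*} [CommRing S] [IsDomain S] [IsIntegrallyClosed S] [Field L] [Field E]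
  [Algebra S L] [IsFractionRing S L] [Algebra L E] [Algebra S E] [IsScalarTower S L E]
  {π : S} (hπ : Prime π) {Oπ : Subring L} (hOπ : IsLocSub (ndvd hπ) Oπ)

include hOπ

variable [FiniteDimensional L E] [Algebra.IsSeparable L E] [IsNoetherianRing S]
  [IsPrincipalIdealRing (S ⧸ Ideal.span {π})]

open PropPAux

/-! ## P : idempotents of the special fibre are regular where `E/L` is unramified -/
theorem propP {κ : S} (hκ0 : κ ≠ 0) {Oκ : Subring L} (hOκ : IsLocSub (Submonoid.powers κ) Oκ)
    (hv : Unr Oπ L E) (hu : Unr Oκ L E) {ε : E} (hε : IdemMod S Oπ π ε) :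
    ∃ k : ℕ, NearInt S Oπ π (algebraMap S E (κ ^ k) * ε) := by
  classical
  obtain ⟨n, c, s, hc, ⟨s', hs'⟩, hbasis⟩ := exists_basis_near (E := E) hπ hOπ
  have hinj : Function.Injective (algebraMap S L) := IsFractionRing.injective S L
  have hTπ : ndvd hπ ≤ nonZeroDivisors S := fun d hd =>
    mem_nonZeroDivisors_of_ne_zero (fun h => hd (h ▸ dvd_zero π))
  have hTκ : Submonoid.powers κ ≤ nonZeroDivisors S := by
    rintro _ ⟨m, rfl⟩
    exact mem_nonZeroDivisors_of_ne_zero (pow_ne_zero m hκ0)
  have hπL : algebraMap S L π ≠ 0 := fun h => hπ.ne_zero (hinj (h.trans (map_zero _).symm))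
  have hπE : algebraMap S E π ≠ 0 := by
    rw [IsScalarTower.algebraMap_apply S L E]
    exact fun h => hπL ((algebraMap L E).injective (h.trans (map_zero _).symm))
  have hs : ¬ π ∣ s := by
    intro h
    have h1 : π ∣ s - (s - 1) := dvd_sub h ⟨s', hs'⟩
    rw [sub_sub_cancel] at h1
    exact hπ.not_dvd_one h1
  -- the trace-dual basis
  let cd := (Algebra.traceForm L E).dualBasis (traceForm_nondegenerate L E) c
  have hcd : ∀ i j, Algebra.trace L E (cd i * c j) = if j = i then 1 else 0 := fun i j => by
    have := (Algebra.traceForm L E).apply_dualBasis_left (traceForm_nondegenerate L E) c i j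
    rwa [Algebra.traceForm_apply] at this
  choose a b hb hab using fun i => trace_idemMod_mul hπ hOπ hε (hc i)
  let y' : E := ∑ j, algebraMap S E (a j) * cd j
  have hy' : ∀ i, Algebra.trace L E (y' * c i) = algebraMap S L (a i) := fun i => by
    simp only [y', Finset.sum_mul, map_sum, mul_assoc, trace_algebraMap_mul, hcd]
    simp
  let w : E := ε - y'
  have hw : ∀ i, Algebra.trace L E (w * c i) = algebraMap S L π * b i := fun i => by
    simp only [w, sub_mul, map_sub, hy', hab]
    ring
  let ρ : E := (algebraMap S E π)⁻¹ * w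
  -- (1)
  have hρ : IsIntegral Oπ ρ := by
    refine hv ρ fun z hz => ?_
    obtain ⟨d, hd, hdz⟩ := (hOπ.isIntegral_iff hTπ z).1 hz
    obtain ⟨a', ha'⟩ := hbasis _ hdz
    have hsd : s * d ∈ ndvd hπ := (ndvd hπ).mul_mem hs hd
    have hsdL : algebraMap S L (s * d) ≠ 0 := fun h =>
      (nonZeroDivisors.ne_zero (hTπ hsd)) (hinj (h.trans (map_zero _).symm))
    have h1 : algebraMap S L (s * d) * (algebraMap S L π * Algebra.trace L E (ρ * z))
        = algebraMap S L π * ∑ i, algebraMap S L (a' i) * b i := by
      rw [← trace_algebraMap_mul, ← trace_algebraMap_mul]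
      have h2 : algebraMap S E (s * d) * (algebraMap S E π * (ρ * z))
          = w * ∑ i, algebraMap S E (a' i) * c i := by
        rw [← ha', map_mul]
        simp only [ρ]
        field_simp
      rw [h2, trace_mul_sum, Finset.mul_sum]
      refine Finset.sum_congr rfl fun i _ => ?_
      rw [hw]
      ring
    have h3 : Algebra.trace L E (ρ * z)
        = (algebraMap S L (s * d))⁻¹ * ∑ i, algebraMap S L (a' i) * b i := by
      rw [eq_inv_mul_iff_mul_eq₀ hsdL]
      have h4 := mul_left_cancel₀ hπL (by rw [← h1]; ring :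
        algebraMap S L π * (algebraMap S L (s * d) * Algebra.trace L E (ρ * z))
          = algebraMap S L π * ∑ i, algebraMap S L (a' i) * b i)
      exact h4
    rw [h3]
    exact isIntegral_of_mem (Oπ.mul_mem (hOπ.inv_mem hsd)
      (Oπ.sum_mem fun i _ => Oπ.mul_mem (hOπ.algebraMap_mem _) (hb i)))
  -- (2)
  have hsy : IsIntegral Oκ (algebraMap S E s * y') := by
    refine hu _ fun z hz => ?_
    obtain ⟨d, hd, hdz⟩ := (hOκ.isIntegral_iff hTκ z).1 hz
    obtain ⟨a', ha'⟩ := hbasis _ hdz
    have hdL : algebraMap S L d ≠ 0 := fun h =>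
      (nonZeroDivisors.ne_zero (hTκ hd)) (hinj (h.trans (map_zero _).symm))
    have h1 : algebraMap S L d * Algebra.trace L E (algebraMap S E s * y' * z)
        = ∑ i, algebraMap S L (a' i) * algebraMap S L (a i) := by
      rw [← trace_algebraMap_mul]
      have h2 : algebraMap S E d * (algebraMap S E s * y' * z)
          = y' * ∑ i, algebraMap S E (a' i) * c i := by
        rw [← ha']
        ring
      rw [h2, trace_mul_sum]
      refine Finset.sum_congr rfl fun i _ => ?_
      rw [hy']
    have h3 : Algebra.trace L E (algebraMap S E s * y' * z)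
        = (algebraMap S L d)⁻¹ * ∑ i, algebraMap S L (a' i) * algebraMap S L (a i) := by
      rw [← h1, inv_mul_cancel_left₀ hdL]
    rw [h3]
    exact isIntegral_of_mem (Oκ.mul_mem (hOκ.inv_mem hd)
      (Oκ.sum_mem fun i _ => Oκ.mul_mem (hOκ.algebraMap_mem _) (hOκ.algebraMap_mem _)))
  obtain ⟨_, ⟨k, rfl⟩, hk⟩ := (hOκ.isIntegral_iff hTκ _).1 hsy
  -- (3)
  refine ⟨k, algebraMap S E (κ ^ k) * (algebraMap S E s * y'),
    algebraMap S E (κ ^ k) * (algebraMap S E s * ρ - algebraMap S E s' * ε), hk, ?_, ?_⟩
  · have hS : ∀ t : S, IsIntegral Oπ (algebraMap S E t) := fun t =>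
      hOπ.isIntegral_of isIntegral_algebraMap
    exact (hS _).mul (((hS _).mul hρ).sub ((hS _).mul hε.1))
  · have hs1 : algebraMap S E s = 1 + algebraMap S E π * algebraMap S E s' := by
      rw [← map_mul, ← hs', map_sub, map_one]
      ring
    have hε' : ε = y' + algebraMap S E π * ρ := by
      simp only [ρ, w]
      field_simp
      ring
    have h5 : algebraMap S E π * ρ = ε - y' := by
      rw [eq_sub_iff_add_eq, add_comm]
      exact hε'.symm
    clear_value ρ y'
    linear_combination (-(algebraMap S E (κ ^ k)) * (algebraMap S E s)) * h5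
      - (algebraMap S E (κ ^ k) * ε) * hs1

end abstract

end Fermat.Agent.KLB
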