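import Fermat.Agent.KLB.Abs.Defs

/-!
# KL-B abstract part: the ring `S + π Oπ`
-/

namespace Fermat.Agent.KLB

variable {S L : Type*} [CommRing S] [Field L] [Algebra S L] {Oπ : Subring L}

/-- The subring `S + π Oπ` of `L`. -/
def Sh (hS : ∀ s : S, algebraMap S L s ∈ Oπ) (π : S) : Subring L where
  carrier := {a | ∃ (s : S) (b : L), b ∈ Oπ ∧ a = algebraMap S L s + algebraMap S L π * b}
  mul_mem' := by
    rintro _ _ ⟨s, b, hb, rfl⟩ ⟨s', b', hb', rfl⟩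
    refine ⟨s * s', algebraMap S L s * b' + algebraMap S L s' * b + algebraMap S L π * b * b',
      Oπ.add_mem (Oπ.add_mem (Oπ.mul_mem (hS s) hb') (Oπ.mul_mem (hS s') hb))
        (Oπ.mul_mem (Oπ.mul_mem (hS π) hb) hb'), ?_⟩
    rw [map_mul]; ring
  one_mem' := ⟨1, 0, Oπ.zero_mem, by simp⟩
  add_mem' := by
    rintro _ _ ⟨s, b, hb, rfl⟩ ⟨s', b', hb', rfl⟩
    exact ⟨s + s', b + b', Oπ.add_mem hb hb', by rw [map_add]; ring⟩
  zero_mem' := ⟨0, 0, Oπ.zero_mem, by simp⟩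
  neg_mem' := by
    rintro _ ⟨s, b, hb, rfl⟩
    exact ⟨-s, -b, Oπ.neg_mem hb, by rw [map_neg]; ring⟩

theorem mem_Sh (hS : ∀ s : S, algebraMap S L s ∈ Oπ) (π : S) {a : L} :
    a ∈ Sh hS π ↔ ∃ (s : S) (b : L), b ∈ Oπ ∧ a = algebraMap S L s + algebraMap S L π * b :=
  Iff.rfl

theorem Sh_le (hS : ∀ s : S, algebraMap S L s ∈ Oπ) (π : S) : Sh hS π ≤ Oπ := by
  rintro _ ⟨s, b, hb, rfl⟩
  exact Oπ.add_mem (hS s) (Oπ.mul_mem (hS π) hb)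

theorem algebraMap_mem_Sh (hS : ∀ s : S, algebraMap S L s ∈ Oπ) (π : S) (s : S) :
    algebraMap S L s ∈ Sh hS π := ⟨s, 0, Oπ.zero_mem, by simp⟩

end Fermat.Agent.KLB
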