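import Fermat.Agent.KLB.Abs.Loc
import Fermat.Agent.KLB.Abs.ShDef

/-!
# KL-B abstract part, node SH2
The ring `Sh = S + π Oπ` is integrally closed in `L`; idempotents modulo `π` are integral over it.
Proofs: helper61.
-/

set_option linter.unusedSectionVars false

namespace Fermat.Agent.KLB

section abstract

variable {S L E : Type*} [CommRing S] [IsDomain S] [IsIntegrallyClosed S] [Field L] [Field E]
  [Algebra S L] [IsFractionRing S L] [Algebra L E] [Algebra S E] [IsScalarTower S L E]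
  {π : S} (hπ : Prime π) {Oπ : Subring L} (hOπ : IsLocSub (ndvd hπ) Oπ)

include hOπ

theorem isIntegral_Sh_of_isIntegral {z : E} (hz : IsIntegral S z) :
    IsIntegral (Sh hOπ.algebraMap_mem π) z := by
  obtain ⟨p, hp, hp0⟩ := hz
  let f : S →+* Sh hOπ.algebraMap_mem π :=
    (algebraMap S L).codRestrict (Sh hOπ.algebraMap_mem π) (algebraMap_mem_Sh hOπ.algebraMap_mem π)
  refine ⟨p.map f, hp.map f, ?_⟩
  rw [Polynomial.eval₂_map]
  have hf : (algebraMap (Sh hOπ.algebraMap_mem π) E).comp f = algebraMap S E := by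
    ext s
    exact (IsScalarTower.algebraMap_apply S L E s).symm
  rw [hf]
  exact hp0

/-- `π r` is integral over `Sh` as soon as `r` is integral over `Oπ`. -/
theorem isIntegral_Sh_mul_of_isIntegral {r : E} (hr : IsIntegral Oπ r) :
    IsIntegral (Sh hOπ.algebraMap_mem π) (algebraMap S E π * r) := by
  obtain ⟨p, hp, hp0⟩ := hr
  set P : Polynomial L := p.map (algebraMap Oπ L) with hP
  have hPm : P.Monic := hp.map _
  have hP0 : Polynomial.aeval r P = 0 := by
    rw [hP, Polynomial.aeval_def, Polynomial.eval₂_map]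
    exact hp0
  set Q : Polynomial L := P.scaleRoots (algebraMap S L π) with hQ
  have hQm : Q.Monic := (Polynomial.monic_scaleRoots_iff _).mpr hPm
  have hQ0 : Polynomial.aeval (algebraMap S E π * r) Q = 0 := by
    rw [IsScalarTower.algebraMap_apply S L E π]
    exact Polynomial.scaleRoots_aeval_eq_zero hP0
  have hc : ∀ i, Q.coeff i ∈ Sh hOπ.algebraMap_mem π := by
    intro i
    rw [hQ, Polynomial.coeff_scaleRoots]
    rcases lt_trichotomy i P.natDegree with hi | hi | hi
    · obtain ⟨j, hj⟩ : ∃ j, P.natDegree - i = j + 1 := ⟨P.natDegree - i - 1, by omega⟩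
      rw [hj]
      refine ⟨0, P.coeff i * algebraMap S L π ^ j, ?_, by rw [map_zero]; ring⟩
      refine Oπ.mul_mem ?_ (Oπ.pow_mem (hOπ.algebraMap_mem π) j)
      rw [hP, Polynomial.coeff_map]
      exact (p.coeff i).2
    · rw [hi, Nat.sub_self, pow_zero, mul_one, Polynomial.coeff_natDegree, hPm.leadingCoeff]
      exact one_mem _
    · rw [Polynomial.coeff_eq_zero_of_natDegree_lt hi, zero_mul]
      exact zero_mem _
  have hsub : (↑Q.coeffs : Set L) ⊆ Sh hOπ.algebraMap_mem π := by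
    intro a ha
    obtain ⟨i, -, rfl⟩ := Polynomial.mem_coeffs_iff.mp (Finset.mem_coe.mp ha)
    exact hc i
  refine ⟨Q.toSubring _ hsub, (Polynomial.monic_toSubring _ _ _).mpr hQm, ?_⟩
  have h5 : (Q.toSubring _ hsub).map (algebraMap (Sh hOπ.algebraMap_mem π) L) = Q :=
    Polynomial.map_toSubring _ _ _
  rw [← h5, Polynomial.aeval_def, Polynomial.eval₂_map] at hQ0
  exact hQ0

theorem isIntegral_Sh_of_idemMod {ε : E} (hε : IdemMod S Oπ π ε) :
    IsIntegral (Sh hOπ.algebraMap_mem π) ε := by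
  obtain ⟨-, r, hr, hεr⟩ := hε
  have h1 := isIntegral_Sh_mul_of_isIntegral hπ hOπ hr
  have hm : (Polynomial.X ^ 2 - Polynomial.X : Polynomial (Sh hOπ.algebraMap_mem π)).Monic := by
    apply Polynomial.monic_X_pow_sub
    rw [Polynomial.degree_X]
    norm_num
  have hd : (Polynomial.X ^ 2 - Polynomial.X :
      Polynomial (Sh hOπ.algebraMap_mem π)).natDegree ≠ 0 := by
    rw [Polynomial.natDegree_sub_eq_left_of_natDegree_lt] <;> simp
  refine IsIntegral.of_aeval_monic hm hd ?_
  simpa [hεr] using h1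

theorem Sh.mem_of_isIntegral [IsPrincipalIdealRing (S ⧸ Ideal.span {π})] {a : L}
    (ha : IsIntegral (Sh hOπ.algebraMap_mem π) a) : a ∈ Sh hOπ.algebraMap_mem π := by
  have hT : ndvd hπ ≤ nonZeroDivisors S := by
    intro d hd
    refine mem_nonZeroDivisors_of_ne_zero ?_
    rintro rfl
    exact hd (dvd_zero π)
  have hne : ∀ d ∈ ndvd hπ, algebraMap S L d ≠ 0 := fun d hd =>
    IsFractionRing.to_map_ne_zero_of_mem_nonZeroDivisors (hT hd)
  obtain ⟨p, hp, hp0⟩ := ha
  -- `a ∈ Oπ`
  let ι : Sh hOπ.algebraMap_mem π →+* Oπ := Subring.inclusion (Sh_le hOπ.algebraMap_mem π)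
  have haO : a ∈ Oπ := by
    refine hOπ.mem_of_isIntegral hT ⟨p.map ι, hp.map ι, ?_⟩
    rw [Polynomial.eval₂_map]
    exact hp0
  -- `Oπ` is the localisation of `S`
  let _ : Algebra S Oπ := ((algebraMap S L).codRestrict Oπ hOπ.algebraMap_mem).toAlgebra
  have hcoe : ∀ s : S, ((algebraMap S Oπ s : Oπ) : L) = algebraMap S L s := fun _ => rfl
  have hloc : IsLocalization (ndvd hπ) Oπ :=
    { map_units := by
        rintro ⟨d, hd⟩
        refine IsUnit.of_mul_eq_one (⟨(algebraMap S L d)⁻¹, hOπ.inv_mem hd⟩ : Oπ) ?_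
        apply Subtype.ext
        show algebraMap S L d * (algebraMap S L d)⁻¹ = 1
        exact mul_inv_cancel₀ (hne d hd)
      surj := by
        rintro ⟨a, ha⟩
        obtain ⟨d, hd, s, hs⟩ := (hOπ a).mp ha
        refine ⟨(s, ⟨d, hd⟩), ?_⟩
        apply Subtype.ext
        show a * algebraMap S L d = algebraMap S L s
        rw [mul_comm, hs]
      exists_of_eq := by
        intro x z hxz
        refine ⟨1, ?_⟩
        have h1 : algebraMap S L x = algebraMap S L z := congrArg Subtype.val hxz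
        rw [IsFractionRing.injective S L h1] }
  -- the residue field
  have hprime : (Ideal.span {π}).IsPrime := (Ideal.span_singleton_prime hπ.ne_zero).mpr hπ
  let κ := FractionRing (S ⧸ Ideal.span {π})
  let g : S →+* κ := (algebraMap (S ⧸ Ideal.span {π}) κ).comp (Ideal.Quotient.mk (Ideal.span {π}))
  have hg0 : ∀ s : S, g s = 0 ↔ π ∣ s := by
    intro s
    show algebraMap (S ⧸ Ideal.span {π}) κ (Ideal.Quotient.mk (Ideal.span {π}) s) = 0 ↔ _
    rw [map_eq_zero_iff _ (IsFractionRing.injective (S ⧸ Ideal.span {π}) κ),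
      Ideal.Quotient.eq_zero_iff_mem, Ideal.mem_span_singleton]
  have hgu : ∀ y : ndvd hπ, IsUnit (g y) := by
    rintro ⟨d, hd⟩
    exact isUnit_iff_ne_zero.mpr fun h => hd ((hg0 d).mp h)
  let ψ : Oπ →+* κ := IsLocalization.lift hgu
  have hψ : ∀ s : S, ψ (algebraMap S Oπ s) = g s := fun s => IsLocalization.lift_eq hgu s
  -- `ψ` maps `Sh` into `S / π`
  have hψSh : ∀ c : Sh hOπ.algebraMap_mem π,
      ψ (ι c) ∈ Set.range (algebraMap (S ⧸ Ideal.span {π}) κ) := by
    rintro ⟨c, s, b, hb, rfl⟩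
    refine ⟨Ideal.Quotient.mk _ s, ?_⟩
    have h1 : ι ⟨algebraMap S L s + algebraMap S L π * b, s, b, hb, rfl⟩ =
        algebraMap S Oπ s + algebraMap S Oπ π * ⟨b, hb⟩ := Subtype.ext rfl
    rw [h1, map_add, map_mul, hψ, hψ, (hg0 π).mpr dvd_rfl, zero_mul, add_zero]
    rfl
  -- `ψ a` is integral over `S / π`
  have hint : IsIntegral (S ⧸ Ideal.span {π}) (ψ ⟨a, haO⟩) := by
    have hlift : p.map (ψ.comp ι) ∈ Polynomial.lifts (algebraMap (S ⧸ Ideal.span {π}) κ) := by
      rw [Polynomial.lifts_iff_coeff_lifts]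
      intro n
      rw [Polynomial.coeff_map]
      exact hψSh _
    obtain ⟨q, hq, -, hqm⟩ := Polynomial.lifts_and_natDegree_eq_and_monic hlift (hp.map _)
    refine ⟨q, hqm, ?_⟩
    rw [← Polynomial.eval_map, hq, Polynomial.eval_map, ← Polynomial.eval₂_map]
    have h2 : Polynomial.eval₂ (RingHom.id Oπ) (⟨a, haO⟩ : Oπ) (p.map ι) = 0 := by
      apply Subtype.ext
      have h3 := Polynomial.hom_eval₂ (p.map ι) (RingHom.id Oπ) Oπ.subtype (⟨a, haO⟩ : Oπ)
      rw [RingHom.comp_id] at h3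
      refine h3.trans ?_
      rw [Polynomial.eval₂_map]
      exact hp0
    have h10 := Polynomial.hom_eval₂ (p.map ι) (RingHom.id Oπ) ψ (⟨a, haO⟩ : Oπ)
    rw [RingHom.comp_id, h2, map_zero] at h10
    exact h10.symm
  obtain ⟨tb, htb⟩ := (IsIntegrallyClosed.isIntegral_iff (R := S ⧸ Ideal.span {π}) (K := κ)).mp hint
  obtain ⟨t, rfl⟩ := Ideal.Quotient.mk_surjective tb
  obtain ⟨d, hd, n, hdn⟩ := (hOπ a).mp haO
  have h4 : g d * g t = g n := by
    have h5 : algebraMap S Oπ d * (⟨a, haO⟩ : Oπ) = algebraMap S Oπ n := Subtype.ext hdn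
    have h6 := congrArg ψ h5
    rw [map_mul, hψ, hψ, ← htb] at h6
    exact h6
  have h7 : π ∣ n - d * t := by
    rw [← hg0, map_sub, map_mul, h4, sub_self]
  obtain ⟨t', ht'⟩ := h7
  refine ⟨t, algebraMap S L t' * (algebraMap S L d)⁻¹,
    Oπ.mul_mem (hOπ.algebraMap_mem t') (hOπ.inv_mem hd), ?_⟩
  have h8 : algebraMap S L n = algebraMap S L d * algebraMap S L t +
      algebraMap S L π * algebraMap S L t' := by
    rw [← map_mul, ← map_mul, ← map_add, ← ht']
    congr 1
    ring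
  have h9 := hne d hd
  field_simp
  rw [mul_comm a, hdn, h8]
  ring

end abstract

end Fermat.Agent.KLB
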